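import Fermat.Agent.X11.Level11
import Fermat.Agent.EllTorsion.Galois
import Fermat.Agent.EllP.Frey
import Fermat.Prelude.Def_FLTPrelim_CofixedLine

/-!
# The Frey curve has no stable line in its 11-torsion

`no_stable_line`: an elliptic curve over `ℚ` with square discriminant has no proper nonzero
Galois stable subspace in its 11-torsion, as that would be generated by a point of order 11 with
stable span (`no_stable_order_eleven`). The Frey curve has square discriminant, so
`frey_no_cofixed_line` follows for `p = 11`.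
-/

set_option autoImplicit false

open WeierstrassCurve WeierstrassCurve.Affine WeierstrassCurve.Affine.Point

namespace FLTAgent.X11

local notation "Qbar" => AlgebraicClosure ℚ

/-- The discriminant of the Frey curve is a square. -/
lemma frey_Δ_isSquare (P : FreyPackage) : IsSquare P.freyCurve.Δ := by
  rw [← EllP.frey_map_eq, WeierstrassCurve.map_Δ]
  refine ⟨((P.a ^ P.p * P.b ^ P.p * P.c ^ P.p : ℤ) : ℚ) / 16, ?_⟩
  have h := congrArg (Int.cast (R := ℚ)) (EllP.frey_Δ_mul P)
  push_cast at h ⊢
  rw [eq_intCast]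
  linear_combination h / 256

lemma frey_isElliptic (P : FreyPackage) : P.freyCurve.IsElliptic := by
  rw [← EllP.frey_map_eq]
  exact EllTorsion.isElliptic_map_rat (EllP.frey_Δ_ne_zero P)

/-- A proper stable subspace of the 11-torsion contradicts a square discriminant. -/
theorem no_stable_line (E : WeierstrassCurve ℚ) [E.IsElliptic] (hΔ : IsSquare E.Δ)
    (N : Submodule (ZMod 11) (Submodule.torsionBy ℤ (E⁄Qbar).Point (11 : ℕ)))
    (hst : IsGaloisStable ℚ N) (hbot : N ≠ ⊥) (htop : N ≠ ⊤) : False := by
  have : Fact (Nat.Prime 11) := ⟨by norm_num⟩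
  have hr := EllTorsion.finrank_torsionBy_rat E 11
  have : Module.Finite (ZMod 11) (Submodule.torsionBy ℤ (E⁄Qbar).Point (11 : ℕ)) :=
    Module.finite_of_finrank_eq_succ hr
  obtain ⟨x, hxN, hx0⟩ := N.exists_mem_ne_zero_of_ne_bot hbot
  have hlt : Module.finrank (ZMod 11) N < 2 := hr ▸ Submodule.finrank_lt htop
  have hpos : 0 < Module.finrank (ZMod 11) N := by
    have : Nontrivial N := Submodule.nontrivial_iff_ne_bot.2 hbot
    exact Module.finrank_pos
  have hN1 : Module.finrank (ZMod 11) N = 1 := by omega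
  have hord : addOrderOf (x : (E⁄Qbar).Point) = 11 := by
    refine addOrderOf_eq_prime ?_ (fun h0 => hx0 (Subtype.ext h0))
    have := x.2
    rw [Submodule.mem_torsionBy_iff] at this
    exact_mod_cast this
  refine no_stable_order_eleven (E := E) hΔ ⟨(x : (E⁄Qbar).Point), hord, fun σ => ?_⟩
  obtain ⟨c, hc⟩ := (finrank_eq_one_iff_of_nonzero' (⟨x, hxN⟩ : N)
    (fun h0 => hx0 (congrArg Subtype.val h0))).1 hN1 ⟨σ • x, hst σ x hxN⟩
  refine ⟨(c.val : ℤ), ?_⟩
  have hc' : c • x = σ • x := congrArg Subtype.val hc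
  rw [← ZMod.natCast_zmod_val c, Nat.cast_smul_eq_nsmul] at hc'
  rw [natCast_zsmul]
  exact (congrArg Subtype.val hc').symm

/-- For `p = 11` the Frey curve has no Galois stable cofixed line. -/
theorem frey_no_cofixed_line (P : FreyPackage) (hp : P.p = 11) :
    ¬ HasGaloisStableCofixedLine (K := Qbar) ℚ P.freyCurve P.p := by
  rw [hp]
  rintro ⟨N, hst, hbot, htop, -⟩
  have := frey_isElliptic P
  exact no_stable_line P.freyCurve (frey_Δ_isSquare P) N hst hbot htop

end FLTAgent.X11
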