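import Fermat.Agent.X11.EulerCube

/-!
# The curve 44a2 has no affine rational point

`W² = X³ - 20X² + 56X - 44` has no rational solution.  Proof: descent through the 3-isogeny
with the curve `y² = z³ + 4(z + 1)²` (44a1); a point with numerator `m` gives one with
numerator `m'` where `m'⁴ ≤ 935² * 5 * m`; the finitely many `m ≤ 163` are checked directly.
-/

set_option autoImplicit false

namespace FLTAgent.X11

/-- The right-hand side of 44a2, homogenised. -/
def g44 (m D : ℤ) : ℤ := m ^ 3 - 20 * m ^ 2 * D + 56 * m * D ^ 2 - 44 * D ^ 3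

/-- Integer square root by binary search, for certificates only. -/
def isqrtAux : ℕ → ℕ → ℕ → ℕ
  | 0, _, r => r
  | k + 1, n, r => if (r + 2 ^ k) * (r + 2 ^ k) ≤ n then isqrtAux k n (r + 2 ^ k) else isqrtAux k n r

/-- Certificate that an integer is not a square. -/
def nonSq (G : ℤ) : Bool :=
  match G with
  | Int.negSucc _ => true
  | Int.ofNat n => let r := isqrtAux 16 n 0; decide (r * r < n) && decide (n < (r + 1) * (r + 1))

lemma not_sq_of_nonSq {G n : ℤ} (h : nonSq G = true) (hn : n ^ 2 = G) : False := by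
  rcases G with k | k
  · simp only [nonSq, Bool.and_eq_true, decide_eq_true_eq] at h
    have hk : n.natAbs * n.natAbs = k := by
      have : ((n.natAbs * n.natAbs : ℕ) : ℤ) = (k : ℤ) := by
        push_cast
        rw [abs_mul_abs_self]
        simpa [sq] using hn
      exact_mod_cast this
    have h1 := h.1
    have h2 := h.2
    rw [← hk] at h1 h2
    have := Nat.mul_self_lt_mul_self_iff.1 h1
    have := Nat.mul_self_lt_mul_self_iff.1 h2
    omega
  · have : (Int.negSucc k) < 0 := Int.negSucc_lt_zero k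
    nlinarith [sq_nonneg n]

lemma small_cert : ∀ d : Fin 4, ∀ m : Fin 164,
    (decide (d.val = 0) || nonSq (g44 (m.val : ℤ) ((d.val : ℤ) ^ 2))) = true := by
  decide +kernel

/-- Integer squares from a rational square. -/
lemma exists_int_sq {t : ℚ} {G : ℤ} (h : t ^ 2 = (G : ℚ)) : ∃ n : ℤ, n ^ 2 = G := by
  obtain ⟨n, hn⟩ := Rat.isSquare_intCast_iff.1 (⟨t, by rw [← h, sq]⟩ : IsSquare (G : ℚ))
  exact ⟨n, by rw [hn, sq]⟩

lemma den_square {b G t : ℤ} (hb : 0 < b) (hcop : IsCoprime b G) (h : t ^ 2 = b * G) :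
    ∃ d : ℤ, 0 < d ∧ d ^ 2 = b ∧ ∃ n : ℤ, n ^ 2 = G := by
  obtain ⟨d, hd | hd⟩ := Int.sq_of_isCoprime hcop h.symm
  · have hd0 : d ≠ 0 := by rintro rfl; simp [hd] at hb
    refine ⟨|d|, abs_pos.2 hd0, by rw [sq_abs, hd], ?_⟩
    refine exists_int_sq (t := (t : ℚ) / d) ?_
    have : (d : ℚ) ≠ 0 := by exact_mod_cast hd0
    rw [div_pow, div_eq_iff (pow_ne_zero 2 this)]
    exact_mod_cast (by rw [h, hd]; ring : t ^ 2 = G * d ^ 2)
  · nlinarith [sq_nonneg d]

/-- Integral coordinates of a rational point on 44a2. -/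
lemma e2_int {X W : ℚ} (h : W ^ 2 = X ^ 3 - 20 * X ^ 2 + 56 * X - 44) :
    ∃ d n : ℤ, 0 < d ∧ IsCoprime X.num d ∧ n ^ 2 = g44 X.num (d ^ 2) := by
  have hb : (0 : ℤ) < X.den := by exact_mod_cast X.den_pos
  have hcop : IsCoprime X.num (X.den : ℤ) := by
    rw [Int.isCoprime_iff_nat_coprime]; simpa using X.reduced
  have hcG : IsCoprime (X.den : ℤ) (g44 X.num X.den) := by
    have : g44 X.num X.den = X.num ^ 3 + (X.den : ℤ) *
        (-20 * X.num ^ 2 + 56 * X.num * X.den - 44 * (X.den : ℤ) ^ 2) := by unfold g44; ring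
    rw [this]
    exact (hcop.symm.pow_right (n := 3)).add_mul_left_right _
  obtain ⟨t, ht⟩ := exists_int_sq (t := W * (X.den : ℚ) ^ 2)
    (G := (X.den : ℤ) * g44 X.num X.den) (by
      have hX : (X.num : ℚ) = X * X.den := (Rat.mul_den_eq_num X).symm
      unfold g44
      push_cast
      rw [hX]
      linear_combination (X.den : ℚ) ^ 4 * h)
  obtain ⟨d, hd, hdb, n, hn⟩ := den_square hb hcG ht
  refine ⟨d, n, hd, ?_, by rw [hdb]; exact hn⟩
  rw [← hdb] at hcop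
  exact (IsCoprime.pow_right_iff (by norm_num)).1 hcop

/-- Integral coordinates of a rational point on 44a1. -/
lemma e1_int {z y : ℚ} (h : y ^ 2 = z ^ 3 + 4 * (z + 1) ^ 2) :
    ∃ e n : ℤ, 0 < e ∧ e ^ 2 = z.den ∧ IsCoprime z.num e ∧
      n ^ 2 = z.num ^ 3 + 4 * e ^ 2 * (z.num + e ^ 2) ^ 2 := by
  have hb : (0 : ℤ) < z.den := by exact_mod_cast z.den_pos
  have hcop : IsCoprime z.num (z.den : ℤ) := by
    rw [Int.isCoprime_iff_nat_coprime]; simpa using z.reduced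
  have hcG : IsCoprime (z.den : ℤ) (z.num ^ 3 + (z.den : ℤ) * (4 * (z.num + z.den) ^ 2)) :=
    (hcop.symm.pow_right (n := 3)).add_mul_left_right _
  obtain ⟨t, ht⟩ := exists_int_sq (t := y * (z.den : ℚ) ^ 2)
    (G := (z.den : ℤ) * (z.num ^ 3 + (z.den : ℤ) * (4 * (z.num + z.den) ^ 2))) (by
      have hz : (z.num : ℚ) = z * z.den := (Rat.mul_den_eq_num z).symm
      push_cast
      rw [hz]
      linear_combination (z.den : ℚ) ^ 4 * h)
  obtain ⟨e, he, heb, n, hn⟩ := den_square hb hcG ht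
  refine ⟨e, n, he, heb, ?_, by rw [hn, heb]; ring⟩
  rw [← heb] at hcop
  exact (IsCoprime.pow_right_iff (by norm_num)).1 hcop

lemma g44_pos_bound {m D : ℤ} (hD : 0 < D) (h : 0 ≤ g44 m D) : 16 * D < m := by
  by_contra hc
  have hc : m ≤ 16 * D := by linarith
  have : g44 m D < 0 := by
    unfold g44
    rcases le_or_gt m 0 with hm | hm
    · have h1 : 0 ≤ m ^ 2 * (-m) := mul_nonneg (sq_nonneg m) (by linarith)
      have h2 : 0 ≤ m ^ 2 * D := mul_nonneg (sq_nonneg m) hD.le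
      have h3 : 0 ≤ (-m) * D ^ 2 := mul_nonneg (by linarith) (sq_nonneg D)
      have h4 : 0 < D ^ 3 := pow_pos hD 3
      linarith
    · nlinarith [mul_nonneg (sq_nonneg (5 * m - 8 * D)) (sub_nonneg.2 hc),
        mul_nonneg hm.le (sq_nonneg D), pow_pos hD 3, mul_pos hm hD,
        mul_nonneg hD.le (sq_nonneg (5 * m - 8 * D))]
  linarith

lemma even_sq_mod32 : ∀ a : ZMod 32, (a + a) ^ 2 = 0 ∨ (a + a) ^ 2 = 4 ∨ (a + a) ^ 2 = 16 := by
  decide +kernel

lemma parity_g44 : ∀ m d : ZMod 32, ∀ G : ZMod 32,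
    G = m ^ 3 - 20 * m ^ 2 * d ^ 2 + 56 * m * (d ^ 2) ^ 2 - 44 * (d ^ 2) ^ 3 →
    (G = 0 ∨ G = 4 ∨ G = 16) → 16 * m = 0 ∧ 16 * d = 0 := by
  suffices h : ∀ m d : ZMod 32,
      (fun G : ZMod 32 => (G = 0 ∨ G = 4 ∨ G = 16) → 16 * m = 0 ∧ 16 * d = 0)
        (m ^ 3 - 20 * m ^ 2 * d ^ 2 + 56 * m * (d ^ 2) ^ 2 - 44 * (d ^ 2) ^ 3) from
    fun m d G hG => hG ▸ h m d
  decide +kernel

/-- First half of the descent: 44a2 to 44a1. -/
lemma step_one {m d n : ℤ} (hd : 0 < d) (hcop : IsCoprime m d) (h : n ^ 2 = g44 m (d ^ 2)) :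
    ∃ z y : ℚ, y ^ 2 = z ^ 3 + 4 * (z + 1) ^ 2 ∧ z ≠ 0 ∧
      z.num ^ 2 ≤ 5 * m ∧ (z.den : ℤ) ^ 2 ≤ 5 * m := by
  have hm : 16 * d ^ 2 < m := g44_pos_bound (pow_pos hd 2) (h ▸ sq_nonneg n)
  have hnodd : Odd n := by
    rw [← Int.not_even_iff_odd]
    rintro ⟨k, rfl⟩
    have h16 := congrArg (Int.cast (R := ZMod 32)) h
    unfold g44 at h16
    push_cast at h16
    have h2 : ∀ a : ℤ, 16 * (a : ZMod 32) = 0 → (2 : ℤ) ∣ a := fun a ha => by
      have : ((16 * a : ℤ) : ZMod 32) = 0 := by push_cast; exact ha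
      rw [ZMod.intCast_zmod_eq_zero_iff_dvd] at this
      norm_num at this; omega
    obtain ⟨hm2, hd2⟩ := parity_g44 (m : ZMod 32) (d : ZMod 32) _ h16 (even_sq_mod32 _)
    obtain ⟨a, b, hab⟩ := hcop
    have := dvd_add (dvd_mul_of_dvd_right (h2 m hm2) a) (dvd_mul_of_dvd_right (h2 d hd2) b)
    rw [hab] at this
    omega
  obtain ⟨p, q, hp, hq, hN⟩ := euler_cube (2 * d * (9 * m - 13 * d ^ 2)) (3 * n)
    (3 * m - 8 * d ^ 2) (by unfold g44 at h; linear_combination 27 * h)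
    (by
      have : Odd (3 * n) := (by decide : Odd (3 : ℤ)).mul hnodd
      have he : Even (2 * d * (9 * m - 13 * d ^ 2)) := by rw [mul_assoc]; exact even_two_mul _
      exact he.add_odd this)
    (by
      intro r hr hrx hrN
      have hp := Nat.prime_iff_prime_int.1 hr
      rcases hp.dvd_or_dvd hrx with hx | hx
      · rcases hp.dvd_or_dvd hx with hx | hx
        · -- `r = 2` impossible, `N` is odd
          exfalso
          obtain rfl : r = 2 :=
            (Nat.prime_dvd_prime_iff_eq hr Nat.prime_two).1 (by exact_mod_cast hx)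
          have hm2 : (2 : ℤ) ∣ m := by omega
          obtain ⟨k, rfl⟩ := hm2
          have hdodd : Odd d := by
            rw [← Int.not_even_iff_odd]
            rintro ⟨e, rfl⟩
            obtain ⟨a, b, hab⟩ := hcop
            have : (2 : ℤ) ∣ 1 := ⟨a * k + b * e, by linear_combination -hab⟩
            omega
          have : n ^ 2 % 2 = 0 := by
            rw [h]; unfold g44
            have : (2 * k) ^ 3 - 20 * (2 * k) ^ 2 * d ^ 2 + 56 * (2 * k) * (d ^ 2) ^ 2 -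
                44 * (d ^ 2) ^ 3 = 2 * (4 * k ^ 3 - 40 * k ^ 2 * d ^ 2 + 56 * k * (d ^ 2) ^ 2 -
                22 * (d ^ 2) ^ 3) := by ring
            rw [this]; omega
          rw [Int.odd_iff.1 hnodd.pow] at this
          omega
        · have h3m : (r : ℤ) ∣ 3 * m := by
            have : 3 * m = (3 * m - 8 * d ^ 2) + d * (8 * d) := by ring
            rw [this]; exact dvd_add hrN (dvd_mul_of_dvd_left hx _)
          rcases hp.dvd_or_dvd h3m with h3 | h3
          · exact Or.inl ((Nat.prime_dvd_prime_iff_eq hr Nat.prime_three).1 (by exact_mod_cast h3))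
          · exfalso
            exact hp.not_isUnit (hcop.isUnit_of_dvd' h3 hx)
      · have h11 : (r : ℤ) ∣ 11 * d ^ 2 := by
          have h' : (r : ℤ) ∣ -11 * d ^ 2 := by
            have : -11 * d ^ 2 = 3 * (3 * m - 8 * d ^ 2) - (9 * m - 13 * d ^ 2) := by ring
            rw [this]; exact dvd_sub (dvd_mul_of_dvd_right hrN _) hx
          simpa using h'
        rcases hp.dvd_or_dvd h11 with h1 | h1
        · exact Or.inr ((Nat.prime_dvd_prime_iff_eq hr (by norm_num)).1 (by exact_mod_cast h1))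
        · have hx2 := hp.dvd_of_dvd_pow h1
          have h9m : (r : ℤ) ∣ 9 * m := by
            have : 9 * m = (9 * m - 13 * d ^ 2) + d * (13 * d) := by ring
            rw [this]; exact dvd_add hx (dvd_mul_of_dvd_left hx2 _)
          rcases hp.dvd_or_dvd h9m with h3 | h3
          · refine Or.inl ((Nat.prime_dvd_prime_iff_eq hr Nat.prime_three).1 ?_)
            have : (r : ℤ) ∣ 3 := hp.dvd_of_dvd_pow (n := 2) (by norm_num; exact h3)
            exact_mod_cast this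
          · exfalso
            exact hp.not_isUnit (hcop.isUnit_of_dvd' h3 hx2))
  have hE : 9 * q ^ 2 * (p + 2 * d) = p ^ 3 - 6 * p ^ 2 * d - 22 * d ^ 3 := by
    linear_combination hp - 6 * d * hN
  have hk : p + 2 * d ≠ 0 := by
    intro h0
    obtain rfl : p = -2 * d := by linarith
    nlinarith [pow_pos hd 3]
  have hkq : ((p + 2 * d : ℤ) : ℚ) ≠ 0 := by exact_mod_cast hk
  let z : ℚ := ((-6 * d : ℤ) : ℚ) / ((p + 2 * d : ℤ) : ℚ)
  have hy : ((6 * q : ℤ) / ((p + 2 * d : ℤ) : ℚ)) ^ 2 = z ^ 3 + 4 * (z + 1) ^ 2 := by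
    have hE' := congrArg (Int.cast (R := ℚ)) hE
    push_cast at hE' hkq ⊢
    simp only [z]
    push_cast
    field_simp
    linear_combination 4 * hE'
  have hz0 : z ≠ 0 := div_ne_zero (by exact_mod_cast (by omega : (-6 * d : ℤ) ≠ 0)) hkq
  have hnum : z.num ∣ -6 * d := by
    rw [show z = Rat.divInt (-6 * d) (p + 2 * d) from (Rat.divInt_eq_div _ _).symm]
    exact Rat.num_dvd _ hk
  have hden : (z.den : ℤ) ∣ p + 2 * d := by
    rw [show z = Rat.divInt (-6 * d) (p + 2 * d) from (Rat.divInt_eq_div _ _).symm]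
    exact Rat.den_dvd _ _
  have h6 : z.num ^ 2 ≤ (-6 * d) ^ 2 :=
    sq_le_sq.2 (Int.le_of_dvd (abs_pos.2 (by omega)) ((abs_dvd _ _).2 ((dvd_abs _ _).2 hnum)))
  have hkk : (z.den : ℤ) ^ 2 ≤ (p + 2 * d) ^ 2 :=
    sq_le_sq.2 (Int.le_of_dvd (abs_pos.2 hk) ((abs_dvd _ _).2 ((dvd_abs _ _).2 hden)))
  refine ⟨z, _, hy, hz0, ?_, ?_⟩
  · linarith [show (-6 * d) ^ 2 = 36 * d ^ 2 by ring, sq_nonneg d]
  · have hpN : p ^ 2 ≤ 3 * m := by nlinarith [sq_nonneg q, sq_nonneg d]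
    nlinarith [sq_nonneg (p - 8 * d)]

/-- The plane cubic form of 44a2 gives a point with small numerator. -/
lemma plane_cubic {S R E H : ℤ} (hE : E ≠ 0) (h : S ^ 3 - R ^ 3 = 4 * E * (R * S + E ^ 2))
    (hσ : (S - R) ^ 2 ≤ 11 * H) (hEH : E ^ 2 ≤ H) :
    ∃ X W : ℚ, W ^ 2 = X ^ 3 - 20 * X ^ 2 + 56 * X - 44 ∧ X.num ^ 2 ≤ 935 * H := by
  obtain ⟨s, rfl⟩ : ∃ s, S = R + s := ⟨S - R, by ring⟩
  have hk : 3 * s - 4 * E ≠ 0 := by
    intro h0
    have h43 : s ^ 3 = 4 * E ^ 3 := by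
      linear_combination h - (R * (R + s)) * h0
    have : (3 * s) ^ 3 = 108 * E ^ 3 := by linear_combination 27 * h43
    rw [show 3 * s = 4 * E by linarith] at this
    have : E ^ 3 = 0 := by linarith [show (4 * E) ^ 3 = 64 * E ^ 3 by ring]
    exact hE (pow_eq_zero_iff (by norm_num) |>.1 this)
  have hkq : ((3 * s - 4 * E : ℤ) : ℚ) ≠ 0 := by exact_mod_cast hk
  let X : ℚ := ((4 * (E + 2 * s) : ℤ) : ℚ) / ((3 * s - 4 * E : ℤ) : ℚ)
  refine ⟨X, ((22 * (2 * R + s) : ℤ) : ℚ) / ((3 * s - 4 * E : ℤ) : ℚ), ?_, ?_⟩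
  · have key : (22 * (2 * R + s)) ^ 2 * (3 * s - 4 * E) =
        g44 (4 * (E + 2 * s)) (3 * s - 4 * E) := by
      unfold g44; linear_combination 1936 * h
    have key' := congrArg (Int.cast (R := ℚ)) key
    unfold g44 at key'
    simp only [X]
    rw [Int.cast_mul, Int.cast_pow] at key'
    push_cast at key'
    have hcast : ((3 * s - 4 * E : ℤ) : ℚ) = 3 * (s : ℚ) - 4 * E := by push_cast; ring
    rw [← hcast] at key'
    generalize hκ : ((3 * s - 4 * E : ℤ) : ℚ) = κ at *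
    push_cast
    field_simp
    linear_combination key'
  · have hden : X = Rat.divInt (4 * (E + 2 * s)) (3 * s - 4 * E) := (Rat.divInt_eq_div _ _).symm
    have hnum : X.num ∣ 4 * (E + 2 * s) := by rw [hden]; exact Rat.num_dvd _ hk
    simp only [add_sub_cancel_left] at hσ
    have hb : (4 * (E + 2 * s)) ^ 2 ≤ 935 * H := by nlinarith [sq_nonneg (3 * E - s)]
    by_cases h0 : 4 * (E + 2 * s) = 0
    · have : X.num = 0 := by simp [X, h0]
      rw [this]; nlinarith [sq_nonneg E]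
    · exact le_trans (sq_le_sq.2
        (Int.le_of_dvd (abs_pos.2 h0) ((abs_dvd _ _).2 ((dvd_abs _ _).2 hnum)))) hb

lemma exists_cube_of_mul {A B m : ℤ} (hcop : IsCoprime A B) (h : A * B = m ^ 3) :
    ∃ r s : ℤ, A = r ^ 3 ∧ B = s ^ 3 ∧ m = r * s := by
  obtain ⟨⟨r, rfl⟩, ⟨s, rfl⟩⟩ := Int.eq_pow_of_mul_eq_pow_odd hcop (by decide : Odd 3) h
  refine ⟨r, s, rfl, rfl, ?_⟩
  have : m ^ 3 = (r * s) ^ 3 := by rw [← h]; ring
  exact (Odd.strictMono_pow (R := ℤ) (by decide : Odd 3)).injective this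

lemma le_of_cube_le {a b : ℤ} (_hb : 0 ≤ b) (h : a ^ 3 ≤ b ^ 3) : a ≤ b :=
  (Odd.strictMono_pow (R := ℤ) (by decide : Odd 3)).le_iff_le.1 h

/-- Second half of the descent in the case of an even second factor. -/
lemma step_two_even {m e n A B m' H : ℤ} (hm0 : m ≠ 0) (hA : n - 2 * e * (m + e ^ 2) = 4 * A)
    (hB : n + 2 * e * (m + e ^ 2) = 4 * B) (hm : m = 4 * m') (hAB : A * B = 4 * m' ^ 3)
    (hcop : IsCoprime A B) (hBe : (2 : ℤ) ∣ B) (heH : e ^ 2 ≤ H)
    (hA2 : (4 * A) ^ 2 ≤ 66 * H ^ 3) (hB2 : (4 * B) ^ 2 ≤ 66 * H ^ 3) :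
    ∃ X W : ℚ, W ^ 2 = X ^ 3 - 20 * X ^ 2 + 56 * X - 44 ∧ X.num ^ 2 ≤ 935 * H := by
  have hA4 : IsCoprime (4 : ℤ) A := by
    have h2 : IsCoprime (2 : ℤ) A := (hcop.of_isCoprime_of_dvd_right hBe).symm
    simpa using h2.pow_left (m := 2)
  obtain ⟨B3, rfl⟩ : (4 : ℤ) ∣ B := hA4.dvd_of_dvd_mul_left ⟨m' ^ 3, by linarith⟩
  obtain ⟨r, s, rfl, rfl, rfl⟩ := exists_cube_of_mul hcop.of_mul_right_right
    (show A * B3 = m' ^ 3 by linarith)
  have hH : 0 ≤ H := le_trans (sq_nonneg e) heH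
  have hs0 : s ≠ 0 := by rintro rfl; simp at hm; exact hm0 hm
  have heq : r ^ 3 - (-e) ^ 3 = 4 * s * ((-e) * r + s ^ 2) := by
    subst hm
    linarith [show e * (4 * (r * s) + e ^ 2) = 4 * (r * s) * e + e ^ 3 by ring,
      show 2 * e * (4 * (r * s) + e ^ 2) = 8 * (r * s) * e + 2 * e ^ 3 by ring,
      show (-e) ^ 3 = -e ^ 3 by ring, show 4 * s * ((-e) * r + s ^ 2) = -4 * (r * s) * e + 4 * s ^ 3
        by ring]
  have hr : r ^ 2 ≤ 2 * H := le_of_cube_le (by linarith) (by nlinarith [pow_nonneg hH 3])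
  have hs : s ^ 2 ≤ H := le_of_cube_le hH (by nlinarith [pow_nonneg hH 3])
  exact plane_cubic hs0 heq (by nlinarith [sq_nonneg (r - e)]) hs

/-- Second half of the descent: 44a1 to 44a2. -/
lemma step_two {m e n H : ℤ} (hm0 : m ≠ 0) (he : 0 < e) (hcop : IsCoprime m e)
    (h : n ^ 2 = m ^ 3 + 4 * e ^ 2 * (m + e ^ 2) ^ 2) (hmH : m ^ 2 ≤ H ^ 2) (hH : 0 ≤ H)
    (heH : e ^ 2 ≤ H) :
    ∃ X W : ℚ, W ^ 2 = X ^ 3 - 20 * X ^ 2 + 56 * X - 44 ∧ X.num ^ 2 ≤ 935 * H := by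
  have hmH' : |m| ≤ H := abs_le_of_sq_le_sq hmH hH
  obtain ⟨hmlo, hmhi⟩ := abs_le.1 hmH'
  have hP : (m + e ^ 2) ^ 2 ≤ 4 * H ^ 2 := by
    nlinarith [sq_nonneg e]
  have hY : (2 * e * (m + e ^ 2)) ^ 2 ≤ 16 * H ^ 3 := by
    have := mul_le_mul heH hP (sq_nonneg _) hH
    nlinarith
  have hn : n ^ 2 ≤ 17 * H ^ 3 := by
    have : m ^ 3 ≤ H ^ 3 := (Odd.strictMono_pow (R := ℤ) (by decide : Odd 3)).monotone hmhi
    nlinarith
  have hA2 : (n - 2 * e * (m + e ^ 2)) ^ 2 ≤ 66 * H ^ 3 := by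
    nlinarith [sq_nonneg (n + 2 * e * (m + e ^ 2))]
  have hB2 : (n + 2 * e * (m + e ^ 2)) ^ 2 ≤ 66 * H ^ 3 := by
    nlinarith [sq_nonneg (n - 2 * e * (m + e ^ 2))]
  have hme : IsCoprime m (e ^ 2) := hcop.pow_right
  have hne : IsCoprime n e := by
    refine (IsCoprime.pow_left_iff (m := 2) (by norm_num)).1 ?_
    rw [h, show m ^ 3 + 4 * e ^ 2 * (m + e ^ 2) ^ 2 = m ^ 3 + e * (4 * e * (m + e ^ 2) ^ 2) by ring]
    exact hcop.pow_left.add_mul_left_left _
  have hnP : IsCoprime n (m + e ^ 2) := by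
    refine (IsCoprime.pow_left_iff (m := 2) (by norm_num)).1 ?_
    rw [h, show m ^ 3 + 4 * e ^ 2 * (m + e ^ 2) ^ 2 =
      m ^ 3 + (m + e ^ 2) * (4 * e ^ 2 * (m + e ^ 2)) by ring]
    refine IsCoprime.add_mul_left_left (IsCoprime.pow_left ?_) _
    rw [show m + e ^ 2 = e ^ 2 + m * 1 by ring]
    exact hme.add_mul_left_right 1
  have hneP : IsCoprime n (e * (m + e ^ 2)) := hne.mul_right hnP
  rcases Int.even_or_odd' n with ⟨k, rfl | rfl⟩
  · -- `n` even
    have hmev : (2 : ℤ) ∣ m :=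
      Int.prime_two.dvd_of_dvd_pow (n := 3) ⟨2 * k ^ 2 - 2 * e ^ 2 * (m + e ^ 2) ^ 2, by linarith⟩
    obtain ⟨m1, rfl⟩ := hmev
    have he2 : Odd e := by
      rw [← Int.not_even_iff_odd]
      rintro ⟨t, rfl⟩
      obtain ⟨a, b, hab⟩ := hcop
      have : (2 : ℤ) ∣ 1 := ⟨a * m1 + b * t, by linear_combination -hab⟩
      omega
    have hprod : (k - e * (2 * m1 + e ^ 2)) * (k + e * (2 * m1 + e ^ 2)) = 2 * m1 ^ 3 := by
      linarith [show (k - e * (2 * m1 + e ^ 2)) * (k + e * (2 * m1 + e ^ 2)) * 4 =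
        (2 * k) ^ 2 - 4 * e ^ 2 * (2 * m1 + e ^ 2) ^ 2 by ring,
        show (2 * m1) ^ 3 = 4 * (2 * m1 ^ 3) by ring]
    have hPodd : Odd (e * (2 * m1 + e ^ 2)) := he2.mul ((even_two_mul m1).add_odd he2.pow)
    have hkodd : Odd k := by
      rw [← Int.not_even_iff_odd]
      intro hk
      have h1 : Odd ((k - e * (2 * m1 + e ^ 2)) * (k + e * (2 * m1 + e ^ 2))) :=
        (hk.sub_odd hPodd).mul (hk.add_odd hPodd)
      rw [hprod] at h1
      exact Int.not_even_iff_odd.2 h1 (even_two_mul _)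
    obtain ⟨A, hA⟩ := (hkodd.sub_odd hPodd).two_dvd
    obtain ⟨B, hB⟩ := (hkodd.add_odd hPodd).two_dvd
    have hm1 : (2 : ℤ) ∣ m1 :=
      Int.prime_two.dvd_of_dvd_pow (n := 3) ⟨A * B, by rw [hA, hB] at hprod; linarith⟩
    obtain ⟨m2, rfl⟩ := hm1
    have hAB : A * B = 4 * m2 ^ 3 := by
      rw [hA, hB] at hprod
      linarith [show (2 * A) * (2 * B) = 4 * (A * B) by ring]
    have hcAB : IsCoprime A B := by
      have h1 : IsCoprime (2 * A) (e * (2 * (2 * m2) + e ^ 2)) := by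
        rw [← hA]
        have : k - e * (2 * (2 * m2) + e ^ 2) = k + e * (2 * (2 * m2) + e ^ 2) * (-1) := by ring
        rw [this]
        exact hneP.of_mul_left_right.add_mul_left_left (-1)
      have h2 : IsCoprime A (A + e * (2 * (2 * m2) + e ^ 2)) := by
        have := h1.of_mul_left_right.add_mul_left_right 1
        rwa [mul_one, add_comm] at this
      rwa [show A + e * (2 * (2 * m2) + e ^ 2) = B by linarith] at h2
    rcases Int.even_or_odd B with hBe | hBo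
    · exact step_two_even hm0 (by linarith) (by linarith) (m' := m2) (by ring) hAB hcAB hBe.two_dvd
        heH (A := A) (B := B) (n := 2 * k)
        (by rw [show 4 * A = 2 * k - 2 * e * (2 * (2 * m2) + e ^ 2) by linarith]; exact hA2)
        (by rw [show 4 * B = 2 * k + 2 * e * (2 * (2 * m2) + e ^ 2) by linarith]; exact hB2)
    · have hsum : A + B = k := by linarith
      have hAe : Even A := by
        have := hkodd.sub_odd hBo
        rwa [← hsum, add_sub_cancel_right] at this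
      exact step_two_even hm0 (A := -B) (B := -A) (n := -(2 * k)) (by linarith) (by linarith)
        (m' := m2) (by ring) (by rw [← hAB]; ring) hcAB.symm.neg_neg (dvd_neg.2 hAe.two_dvd) heH
        (by rw [show 4 * -B = -(2 * k + 2 * e * (2 * (2 * m2) + e ^ 2)) by linarith, neg_sq]
            exact hB2)
        (by rw [show 4 * -A = -(2 * k - 2 * e * (2 * (2 * m2) + e ^ 2)) by linarith, neg_sq]
            exact hA2)
  · -- `n` odd
    have hcAB : IsCoprime (2 * k + 1 - 2 * e * (m + e ^ 2))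
        (2 * k + 1 + 2 * e * (m + e ^ 2)) := by
      have h2 : IsCoprime (2 * k + 1) ((2 : ℤ) ^ 2) :=
        IsCoprime.pow_right ⟨1, -k, by ring⟩
      have h3 : IsCoprime (2 * k + 1 - 2 * e * (m + e ^ 2)) (4 * (e * (m + e ^ 2))) := by
        refine IsCoprime.mul_right ?_ ?_
        · have : IsCoprime (2 * k + 1 - 2 * e * (m + e ^ 2)) ((2 : ℤ) ^ 2) :=
            IsCoprime.pow_right ⟨1, -(k - e * (m + e ^ 2)), by ring⟩
          simpa using this
        · rw [show 2 * k + 1 - 2 * e * (m + e ^ 2) = 2 * k + 1 + e * (m + e ^ 2) * (-2) by ring]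
          exact hneP.add_mul_left_left (-2)
      have h4 := h3.add_mul_left_right 1
      rwa [mul_one, show 4 * (e * (m + e ^ 2)) + (2 * k + 1 - 2 * e * (m + e ^ 2)) =
        2 * k + 1 + 2 * e * (m + e ^ 2) by ring] at h4
    obtain ⟨r, s, hr, hs, hmrs⟩ := exists_cube_of_mul (m := m) hcAB
      (by linear_combination h)
    have heq : s ^ 3 - r ^ 3 = 4 * e * (r * s + e ^ 2) := by
      rw [← hr, ← hs, ← hmrs]; ring
    refine plane_cubic he.ne' heq ?_ heH
    have h64 : (s ^ 3 - r ^ 3) ^ 2 ≤ 64 * H ^ 3 := by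
      rw [← hr, ← hs]; nlinarith
    have hid : 4 * (s ^ 3 - r ^ 3) = (s - r) * (3 * (s + r) ^ 2 + (s - r) ^ 2) := by ring
    have : ((s - r) ^ 2) ^ 3 ≤ (4 * (s ^ 3 - r ^ 3)) ^ 2 := by
      rw [hid, mul_pow, show ((s - r) ^ 2) ^ 3 = (s - r) ^ 2 * ((s - r) ^ 2) ^ 2 by ring]
      exact mul_le_mul_of_nonneg_left
        (pow_le_pow_left₀ (sq_nonneg _) (by nlinarith [sq_nonneg (s + r)]) 2) (sq_nonneg _)
    exact le_of_cube_le (by linarith) (by nlinarith [pow_nonneg hH 3])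

/-- `W² = X³ - 20X² + 56X - 44` has no rational solution. -/
theorem no_rat_point_44a2 : ∀ X W : ℚ, W ^ 2 ≠ X ^ 3 - 20 * X ^ 2 + 56 * X - 44 := by
  suffices H : ∀ k : ℕ, ∀ X W : ℚ, X.num.natAbs = k →
      W ^ 2 ≠ X ^ 3 - 20 * X ^ 2 + 56 * X - 44 from fun X W => H _ X W rfl
  intro k
  induction k using Nat.strong_induction_on with
  | _ k IH =>
  intro X W hk hXW
  obtain ⟨d, n, hd, hcop, hn⟩ := e2_int hXW
  set m := X.num with hm
  have hmd : 16 * d ^ 2 < m := g44_pos_bound (pow_pos hd 2) (hn ▸ sq_nonneg n)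
  have hmpos : 0 < m := by nlinarith
  by_cases hsmall : m ≤ 163
  · have hd4 : d < 4 := by nlinarith
    have hc := small_cert ⟨d.toNat, by omega⟩ ⟨m.toNat, by omega⟩
    rw [Bool.or_eq_true] at hc
    rcases hc with hc | hc
    · simp only [decide_eq_true_eq] at hc; omega
    · simp only [Int.toNat_of_nonneg hmpos.le, Int.toNat_of_nonneg hd.le] at hc
      exact not_sq_of_nonSq hc hn
  · obtain ⟨z, y, hy, hz, hb1, hb2⟩ := step_one hd hcop hn
    obtain ⟨e, n1, he, hez, hcop1, hn1⟩ := e1_int hy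
    set H := max |z.num| (z.den : ℤ) with hH
    have hH0 : 0 ≤ H := le_trans (abs_nonneg _) (le_max_left _ _)
    have hz1 : z.num ^ 2 ≤ H ^ 2 := by
      rw [← sq_abs z.num]; exact pow_le_pow_left₀ (abs_nonneg _) (le_max_left _ _) 2
    obtain ⟨X', W', hW', hX'⟩ := step_two (Rat.num_ne_zero.2 hz) he hcop1 hn1 hz1 hH0
      (hez ▸ le_max_right _ _)
    have hH5 : H ^ 2 ≤ 5 * m := by
      rcases max_choice |z.num| (z.den : ℤ) with h | h
      · rw [hH, h, sq_abs]; exact hb1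
      · rw [hH, h]; exact hb2
    have h4 : X'.num ^ 4 ≤ 935 ^ 2 * (5 * m) := by
      have := pow_le_pow_left₀ (sq_nonneg _) hX' 2
      nlinarith
    refine IH X'.num.natAbs ?_ X' W' rfl hW'
    have h163 : 164 ^ 3 ≤ m ^ 3 := pow_le_pow_left₀ (by norm_num) (by omega) 3
    have : |X'.num| < m := by
      by_contra hc
      have hc' := pow_le_pow_left₀ hmpos.le (not_lt.1 hc) 4
      rw [Even.pow_abs (by decide : Even 4)] at hc'
      nlinarith
    rw [← hk]
    rw [Int.abs_eq_natAbs] at this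
    omega

end FLTAgent.X11
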