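import Fermat.Agent.X11.Descent

/-!
# Rational points of 11a1 whose attached units are squares

`no_point_11a1`: no rational point of `y² + y = x³ - x² - 10x - 20` makes both attached unit
values squares. At `x = 5` neither possible point works; elsewhere a square root of
`y - 5x + 20` gives an affine rational point of 44a2, and there is none (`no_rat_point_44a2`).
-/

set_option autoImplicit false

namespace FLTAgent.X11

/-- No rational point of 11a1 has both `y - 5x + 20` (when `x ≠ 5`) and
`(x + 9)(y + 6) - 5(x² + 4x + 10)` a square, the former nonzero away from `x = 5`. -/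
theorem no_point_11a1 (x y : ℚ) (hE : y ^ 2 + y = x ^ 3 - x ^ 2 - 10 * x - 20)
    (h0 : x ≠ 5 → IsSquare (y - 5 * x + 20) ∧ y - 5 * x + 20 ≠ 0)
    (h1 : IsSquare ((x + 9) * (y + 6) - 5 * (x ^ 2 + 4 * x + 10))) : False := by
  rcases eq_or_ne x 5 with rfl | hx
  · have : (y - 5) * (y + 6) = 0 := by linear_combination hE
    rcases mul_eq_zero.1 this with h | h
    · obtain rfl : y = 5 := by linarith
      obtain ⟨r, hr⟩ := h1
      nlinarith [mul_self_nonneg r]
    · obtain rfl : y = -6 := by linarith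
      obtain ⟨r, hr⟩ := h1
      nlinarith [mul_self_nonneg r]
  · obtain ⟨⟨w, hw⟩, hne⟩ := h0 hx
    have hw0 : w ≠ 0 := by rintro rfl; simp [hw] at hne
    refine no_rat_point_44a2 ((x - 5) ^ 2 / w ^ 2)
      (((x - 5) ^ 3 - 2 * (y - 5) * w ^ 2) / w ^ 3) ?_
    have key : ((x - 5) ^ 3 - 2 * (y - 5) * w ^ 2) ^ 2 =
        (x - 5) ^ 6 - 20 * (x - 5) ^ 4 * w ^ 2 + 56 * (x - 5) ^ 2 * (w ^ 2) ^ 2
          - 44 * (w ^ 2) ^ 3 := by
      rw [show w ^ 2 = y - 5 * x + 20 by rw [hw]; ring]
      linear_combination (4 * y ^ 2 - 40 * y * x + 160 * y + 100 * x ^ 2 - 800 * x + 1600) * hE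
    field_simp
    linear_combination key

end FLTAgent.X11
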