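import Mathlib

/-!
# `x² + 3y² = N³` (for the descent on 44a2)

If `x + y` is odd and the common prime divisors of `x` and `N` are at most `3` and `11`,
then `(x, y)` comes from Euler's parametrisation `(p + q√-3)³`.
The proof is elementary (Thue's lemma and Fermat-style reduction).
-/

set_option autoImplicit false

namespace FLTAgent.X11

/-- Thue's lemma, in the form needed here. -/
lemma exists_small_congr (n : ℕ) (hn : 0 < n) (x y : ℤ) :
    ∃ p q : ℤ, (p ≠ 0 ∨ q ≠ 0) ∧ p ^ 2 ≤ n ∧ q ^ 2 ≤ n ∧ (n : ℤ) ∣ p * y - q * x := by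
  have : NeZero n := ⟨hn.ne'⟩
  let s := Nat.sqrt n
  let f : Fin (s + 1) × Fin (s + 1) → ZMod n :=
    fun t => ((t.1.val : ℤ) * y - (t.2.val : ℤ) * x : ℤ)
  have hcard : Fintype.card (ZMod n) < Fintype.card (Fin (s + 1) × Fin (s + 1)) := by
    simp only [Fintype.card_prod, Fintype.card_fin, ZMod.card]
    exact Nat.lt_succ_sqrt n
  obtain ⟨t, u, htu, hf⟩ := Fintype.exists_ne_map_eq_of_card_lt f hcard
  have hs : ((s : ℤ)) ^ 2 ≤ n := by exact_mod_cast Nat.sqrt_le' n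
  refine ⟨(t.1.val : ℤ) - u.1.val, (t.2.val : ℤ) - u.2.val, ?_, ?_, ?_, ?_⟩
  · by_contra h
    simp only [not_or, not_not] at h
    apply htu
    ext <;> omega
  · refine le_trans (sq_le_sq.2 ?_) hs
    have := t.1.isLt; have := u.1.isLt
    rw [abs_le, abs_of_nonneg (Int.natCast_nonneg s)]
    omega
  · refine le_trans (sq_le_sq.2 ?_) hs
    have := t.2.isLt; have := u.2.isLt
    rw [abs_le, abs_of_nonneg (Int.natCast_nonneg s)]
    omega
  · have : (n : ℤ) ∣ ((t.1.val : ℤ) * y - (t.2.val : ℤ) * x) -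
        ((u.1.val : ℤ) * y - (u.2.val : ℤ) * x) :=
      (ZMod.intCast_eq_intCast_iff_dvd_sub _ _ n).1 hf.symm
    convert this using 1
    ring

/-- A representation of `N` by `p² + 3q²` in the congruence class of `(x, y)`. -/
lemma exists_rep {N x y : ℤ} (hN : 0 < N) (hodd : Odd N) (h3 : IsCoprime (3 : ℤ) N)
    (hyN : IsCoprime y N) (hdiv : N ∣ x ^ 2 + 3 * y ^ 2) :
    ∃ p q : ℤ, p ^ 2 + 3 * q ^ 2 = N ∧ N ∣ p * y - q * x := by
  obtain ⟨p, q, hne, hp, hq, hpq⟩ := exists_small_congr N.toNat (by omega) x y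
  rw [Int.toNat_of_nonneg hN.le] at hp hq hpq
  have h2 : IsCoprime (2 : ℤ) N := by
    obtain ⟨k, hk⟩ := hodd
    exact ⟨-k, 1, by rw [hk]; ring⟩
  have hkey : N ∣ p ^ 2 + 3 * q ^ 2 := by
    have h : N ∣ y ^ 2 * (p ^ 2 + 3 * q ^ 2) := by
      have : y ^ 2 * (p ^ 2 + 3 * q ^ 2) =
          (p * y - q * x) * (p * y + q * x) + q ^ 2 * (x ^ 2 + 3 * y ^ 2) := by ring
      rw [this]
      exact dvd_add (dvd_mul_of_dvd_left hpq _) (dvd_mul_of_dvd_right hdiv _)
    exact (IsCoprime.pow_right (n := 2) hyN.symm).dvd_of_dvd_mul_left h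
  obtain ⟨k, hk⟩ := hkey
  have hk0 : 0 < k := by
    rcases le_or_gt k 0 with hk0 | hk0
    · exfalso
      have : p ^ 2 + 3 * q ^ 2 ≤ 0 := by nlinarith
      have hp0 : p = 0 := by nlinarith [sq_nonneg q]
      have hq0 : q = 0 := by nlinarith [sq_nonneg p]
      simp [hp0, hq0] at hne
    · exact hk0
  have hk4 : k ≤ 4 := by nlinarith
  -- parity
  obtain ⟨l, hl⟩ := hodd
  interval_cases k
  · exact ⟨p, q, by linarith, hpq⟩
  · exfalso
    have h4 : (p : ZMod 4) ^ 2 + 3 * (q : ZMod 4) ^ 2 = (2 * (2 * (l : ZMod 4) + 1)) := by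
      have := congrArg (Int.cast (R := ZMod 4)) hk
      push_cast [hl] at this
      linear_combination this
    revert h4
    generalize (p : ZMod 4) = a
    generalize (q : ZMod 4) = b
    generalize (l : ZMod 4) = c
    revert a b c
    decide
  · -- `k = 3`
    have h3p : (3 : ℤ) ∣ p :=
      Int.prime_three.dvd_of_dvd_pow (n := 2) ⟨N - q ^ 2, by linarith⟩
    obtain ⟨p', rfl⟩ := h3p
    refine ⟨q, -p', by nlinarith, ?_⟩
    have h : N ∣ 3 * y * (q * y - -p' * x) := by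
      have : 3 * y * (q * y - -p' * x) =
          q * (x ^ 2 + 3 * y ^ 2) + x * (3 * p' * y - q * x) := by ring
      rw [this]
      exact dvd_add (dvd_mul_of_dvd_right hdiv _) (dvd_mul_of_dvd_right hpq _)
    exact ((IsCoprime.mul_left h3 hyN).symm).dvd_of_dvd_mul_left h
  · -- `k = 4`
    have h4N : IsCoprime (4 : ℤ) N := by
      have := IsCoprime.pow_left (m := 2) h2
      norm_num at this
      exact this
    rcases Int.even_or_odd' p with ⟨p', rfl | rfl⟩ <;>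
      rcases Int.even_or_odd' q with ⟨q', rfl | rfl⟩
    · refine ⟨p', q', by nlinarith, h2.symm.dvd_of_dvd_mul_left ?_⟩
      rw [show 2 * (p' * y - q' * x) = 2 * p' * y - 2 * q' * x by ring]; exact hpq
    · exfalso; ring_nf at hk; omega
    · exfalso; ring_nf at hk; omega
    · rcases Int.even_or_odd' (p' + q') with ⟨t, ht | ht⟩
      · -- `p + q ≡ 2 mod 4`, so `4 ∣ q - p`: multiply by `1 - √-3`
        obtain rfl : q' = 2 * t - p' := by linarith
        refine ⟨((2 * p' + 1) + 3 * (2 * (2 * t - p') + 1)) / 4,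
          ((2 * (2 * t - p') + 1) - (2 * p' + 1)) / 4, ?_, ?_⟩
        all_goals
          rw [show ((2 * p' + 1) + 3 * (2 * (2 * t - p') + 1)) / 4 = 3 * t - p' + 1 by omega,
            show ((2 * (2 * t - p') + 1) - (2 * p' + 1)) / 4 = t - p' by omega]
        · linarith
        · refine h4N.symm.dvd_of_dvd_mul_left ?_
          have h : N ∣ y * (4 * ((3 * t - p' + 1) * y - (t - p') * x)) := by
            have : y * (4 * ((3 * t - p' + 1) * y - (t - p') * x)) =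
              (2 * (2 * t - p') + 1) * (x ^ 2 + 3 * y ^ 2) +
                (x + y) * ((2 * p' + 1) * y - (2 * (2 * t - p') + 1) * x) := by ring
            rw [this]
            exact dvd_add (dvd_mul_of_dvd_right hdiv _) (dvd_mul_of_dvd_right hpq _)
          exact hyN.symm.dvd_of_dvd_mul_left h
      · obtain rfl : q' = 2 * t + 1 - p' := by linarith
        refine ⟨((2 * p' + 1) - 3 * (2 * (2 * t + 1 - p') + 1)) / 4,
          ((2 * (2 * t + 1 - p') + 1) + (2 * p' + 1)) / 4, ?_, ?_⟩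
        all_goals
          rw [show ((2 * p' + 1) - 3 * (2 * (2 * t + 1 - p') + 1)) / 4 = 2 * p' - 3 * t - 2 by omega,
            show ((2 * (2 * t + 1 - p') + 1) + (2 * p' + 1)) / 4 = t + 1 by omega]
        · linarith
        · refine h4N.symm.dvd_of_dvd_mul_left ?_
          have h : N ∣ y * (4 * ((2 * p' - 3 * t - 2) * y - (t + 1) * x)) := by
            have : y * (4 * ((2 * p' - 3 * t - 2) * y - (t + 1) * x)) =
              -(2 * (2 * t + 1 - p') + 1) * (x ^ 2 + 3 * y ^ 2) +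
                (y - x) * ((2 * p' + 1) * y - (2 * (2 * t + 1 - p') + 1) * x) := by ring
            rw [this]
            exact dvd_add (dvd_mul_of_dvd_right hdiv _) (dvd_mul_of_dvd_right hpq _)
          exact hyN.symm.dvd_of_dvd_mul_left h

/-- Division by `p + q√-3`. -/
lemma div_step {N x y p q U V : ℤ} (hN : N ≠ 0) (h2 : IsCoprime (2 : ℤ) N) (hyN : IsCoprime y N)
    (hdiv : N ∣ x ^ 2 + 3 * y ^ 2) (hp : p ^ 2 + 3 * q ^ 2 = N) (hpq : N ∣ p * y - q * x)
    (hc : N ∣ U * y - V * x) (hU : IsCoprime U N) :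
    ∃ u v : ℤ, U = p * u - 3 * q * v ∧ V = p * v + q * u ∧ U ^ 2 + 3 * V ^ 2 = N * (u ^ 2 + 3 * v ^ 2) ∧
      (N ∣ u ^ 2 + 3 * v ^ 2 → N ∣ u * y - v * x ∧ IsCoprime u N) := by
  have hpc : N ∣ p * x + 3 * q * y := by
    refine hyN.symm.dvd_of_dvd_mul_left ?_
    have : y * (p * x + 3 * q * y) = x * (p * y - q * x) + q * (x ^ 2 + 3 * y ^ 2) := by ring
    rw [this]
    exact dvd_add (dvd_mul_of_dvd_right hpq _) (dvd_mul_of_dvd_right hdiv _)
  have hv : N ∣ V * p - U * q := by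
    refine hyN.symm.dvd_of_dvd_mul_left ?_
    have : y * (V * p - U * q) = V * (p * y - q * x) - q * (U * y - V * x) := by ring
    rw [this]
    exact dvd_sub (dvd_mul_of_dvd_right hpq _) (dvd_mul_of_dvd_right hc _)
  have hu : N ∣ U * p + 3 * V * q := by
    refine hyN.symm.dvd_of_dvd_mul_left ?_
    have : y * (U * p + 3 * V * q) = p * (U * y - V * x) + V * (p * x + 3 * q * y) := by ring
    rw [this]
    exact dvd_add (dvd_mul_of_dvd_right hc _) (dvd_mul_of_dvd_right hpc _)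
  obtain ⟨u, hu⟩ := hu
  obtain ⟨v, hv⟩ := hv
  have hUe : U = p * u - 3 * q * v := by
    apply mul_left_cancel₀ hN
    linear_combination p * hu - 3 * q * hv - U * hp
  have hVe : V = p * v + q * u := by
    apply mul_left_cancel₀ hN
    linear_combination q * hu + p * hv - V * hp
  refine ⟨u, v, hUe, hVe, by rw [hUe, hVe, ← hp]; ring, fun hn => ?_⟩
  have h1 : IsCoprime (U * y + V * x) N := by
    obtain ⟨t, ht⟩ := hc
    have : U * y + V * x = 2 * U * y + N * (-t) := by linear_combination -ht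
    rw [this]
    exact IsCoprime.add_mul_left_left ((h2.mul_left hU).mul_left hyN) (-t)
  have h2' : IsCoprime (2 * p * (u * y + v * x)) N := by
    obtain ⟨s, hs⟩ := hpq
    obtain ⟨t, ht⟩ := hpc
    have : 2 * p * (u * y + v * x) = (U * y + V * x) + N * (u * s + v * t) := by
      rw [hUe, hVe]; linear_combination u * hs + v * ht
    rw [this]
    exact IsCoprime.add_mul_left_left h1 _
  have hL : N ∣ u * y - v * x := by
    refine (IsCoprime.of_mul_left_right h2').symm.dvd_of_dvd_mul_left ?_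
    have : (u * y + v * x) * (u * y - v * x) =
        y ^ 2 * (u ^ 2 + 3 * v ^ 2) - v ^ 2 * (x ^ 2 + 3 * y ^ 2) := by ring
    rw [this]
    exact dvd_sub (dvd_mul_of_dvd_right hn _) (dvd_mul_of_dvd_right hdiv _)
  refine ⟨hL, ?_⟩
  obtain ⟨t, ht⟩ := hL
  have h3 : IsCoprime (2 * u * y + N * (-t)) N := by
    have : 2 * u * y + N * (-t) = u * y + v * x := by linear_combination ht
    rw [this]
    exact IsCoprime.of_mul_left_right h2'
  exact (IsCoprime.of_add_mul_left_left h3).of_mul_left_left.of_mul_left_right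

/-- Euler's parametrisation in the coprime case. -/
lemma euler_cube_coprime {x y N : ℤ} (h : x ^ 2 + 3 * y ^ 2 = N ^ 3) (hpar : Odd (x + y))
    (hcop : IsCoprime x N) :
    ∃ p q : ℤ, x = p * (p ^ 2 - 9 * q ^ 2) ∧ y = 3 * q * (p ^ 2 - q ^ 2) ∧
      N = p ^ 2 + 3 * q ^ 2 := by
  have hodd : Odd N := by
    rw [← Int.odd_pow' (n := 3) (by norm_num), ← h]
    have : x ^ 2 + 3 * y ^ 2 = (x + y) ^ 2 + 2 * (y ^ 2 - x * y) := by ring
    rw [this]
    exact hpar.pow.add_even (even_two_mul _)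
  have hN : 0 < N := by
    by_contra hc
    have hN0 : N ≠ 0 := fun h0 => by simp [h0] at hodd
    have : N ^ 3 < 0 := Odd.pow_neg (by decide) (by omega)
    nlinarith
  have h2 : IsCoprime (2 : ℤ) N := by
    obtain ⟨k, hk⟩ := hodd
    exact ⟨-k, 1, by rw [hk]; ring⟩
  have h3y : IsCoprime (3 * y ^ 2) N := by
    have : 3 * y ^ 2 = N * N ^ 2 + -(x ^ 2) := by linear_combination h
    rw [this, add_comm]
    exact IsCoprime.add_mul_left_left (hcop.pow_left (m := 2)).neg_left _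
  have hyN : IsCoprime y N := (IsCoprime.pow_left_iff (by norm_num)).1 h3y.of_mul_left_right
  have hdiv : N ∣ x ^ 2 + 3 * y ^ 2 := h ▸ dvd_pow_self N (by norm_num)
  obtain ⟨p, q, hp, hpq⟩ := exists_rep hN hodd h3y.of_mul_left_left hyN hdiv
  have hc : N ∣ x * y - y * x := ⟨0, by ring⟩
  obtain ⟨u, v, hx, hy, hn, hnext⟩ := div_step hN.ne' h2 hyN hdiv hp hpq hc hcop
  have hn1 : u ^ 2 + 3 * v ^ 2 = N ^ 2 :=
    mul_left_cancel₀ hN.ne' (by rw [← hn, h]; ring)
  obtain ⟨hc1, hcop1⟩ := hnext (hn1 ▸ dvd_pow_self N (by norm_num))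
  obtain ⟨u2, v2, hu, hv, hn2, hnext2⟩ := div_step hN.ne' h2 hyN hdiv hp hpq hc1 hcop1
  have hn3 : u2 ^ 2 + 3 * v2 ^ 2 = N :=
    mul_left_cancel₀ hN.ne' (by rw [← hn2, hn1]; ring)
  obtain ⟨hc2, hcop2⟩ := hnext2 (by rw [hn3])
  obtain ⟨u3, v3, hu2, hv2, hn4, -⟩ := div_step hN.ne' h2 hyN hdiv hp hpq hc2 hcop2
  have hn5 : u3 ^ 2 + 3 * v3 ^ 2 = 1 :=
    mul_left_cancel₀ hN.ne' (by rw [← hn4, hn3]; ring)
  have hv3 : v3 = 0 := by nlinarith [sq_nonneg u3]
  subst hv3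
  rcases sq_eq_one_iff.1 (show u3 ^ 2 = 1 by linarith) with rfl | rfl
  · exact ⟨p, q, by subst hx hu hv hu2 hv2; ring, by subst hy hu hv hu2 hv2; ring, hp.symm⟩
  · exact ⟨-p, -q, by subst hx hu hv hu2 hv2; ring, by subst hy hu hv hu2 hv2; ring,
      by linear_combination -hp⟩

/-- Euler's parametrisation, allowing common factors `3` and `11`. -/
theorem euler_cube : ∀ (x y N : ℤ), x ^ 2 + 3 * y ^ 2 = N ^ 3 → Odd (x + y) →
    (∀ r : ℕ, r.Prime → (r : ℤ) ∣ x → (r : ℤ) ∣ N → r = 3 ∨ r = 11) →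
    ∃ p q : ℤ, x = p * (p ^ 2 - 9 * q ^ 2) ∧ y = 3 * q * (p ^ 2 - q ^ 2) ∧
      N = p ^ 2 + 3 * q ^ 2 := by
  suffices H : ∀ k : ℕ, ∀ (x y N : ℤ), N.natAbs = k → x ^ 2 + 3 * y ^ 2 = N ^ 3 → Odd (x + y) →
      (∀ r : ℕ, r.Prime → (r : ℤ) ∣ x → (r : ℤ) ∣ N → r = 3 ∨ r = 11) →
      ∃ p q : ℤ, x = p * (p ^ 2 - 9 * q ^ 2) ∧ y = 3 * q * (p ^ 2 - q ^ 2) ∧
        N = p ^ 2 + 3 * q ^ 2 from fun x y N => H _ x y N rfl
  intro k
  induction k using Nat.strong_induction_on with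
  | _ k IH =>
  intro x y N hk h hpar hr
  have hN0 : N ≠ 0 := by
    rintro rfl
    have hx : x = 0 := by nlinarith [sq_nonneg y, sq_nonneg x]
    have hy : y = 0 := by nlinarith [sq_nonneg y, sq_nonneg x]
    simp [hx, hy] at hpar
  by_cases h11 : (11 : ℤ) ∣ x ∧ (11 : ℤ) ∣ N
  · obtain ⟨⟨x1, rfl⟩, ⟨N1, rfl⟩⟩ := h11
    have key : ∀ a b : ℤ, (11 : ℤ) ∣ a ^ 2 + 3 * b ^ 2 → (11 : ℤ) ∣ a ∧ (11 : ℤ) ∣ b := by
      intro a b hab
      have hab' := (ZMod.intCast_zmod_eq_zero_iff_dvd _ 11).2 hab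
      push_cast at hab'
      have := (by decide : ∀ a b : ZMod 11, a ^ 2 + 3 * b ^ 2 = 0 → a = 0 ∧ b = 0) _ _ hab'
      exact ⟨(ZMod.intCast_zmod_eq_zero_iff_dvd a 11).1 this.1,
        (ZMod.intCast_zmod_eq_zero_iff_dvd b 11).1 this.2⟩
    obtain ⟨y1, rfl⟩ := (key (11 * x1) y ⟨121 * N1 ^ 3, by linarith⟩).2
    obtain ⟨⟨x2, rfl⟩, ⟨y2, rfl⟩⟩ := key x1 y1 ⟨N1 ^ 3, by linarith⟩
    have : (11 : ℤ) ∣ N1 :=
      (Nat.prime_iff_prime_int.1 (by norm_num : Nat.Prime 11)).dvd_of_dvd_pow (n := 3)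
        ⟨x2 ^ 2 + 3 * y2 ^ 2, by push_cast; linarith⟩
    obtain ⟨N2, rfl⟩ := this
    obtain ⟨⟨x3, rfl⟩, ⟨y3, rfl⟩⟩ := key x2 y2 ⟨11 * N2 ^ 3, by linarith⟩
    have hN2 : N2 ≠ 0 := fun h0 => hN0 (by rw [h0]; ring)
    obtain ⟨p, q, hp1, hp2, hp3⟩ := IH N2.natAbs (by
        rw [← hk, Int.natAbs_mul, Int.natAbs_mul]
        have : 0 < N2.natAbs := Int.natAbs_pos.2 hN2
        norm_num; omega) x3 y3 N2 rfl (by linarith)
      (by
        have : 11 * (11 * (11 * x3)) + 11 * (11 * (11 * y3)) = 1331 * (x3 + y3) := by ring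
        rw [this] at hpar
        exact Int.Odd.of_mul_right hpar)
      (fun r hrp h1 h2 => hr r hrp
        (dvd_mul_of_dvd_right (dvd_mul_of_dvd_right (dvd_mul_of_dvd_right h1 _) _) _)
        (dvd_mul_of_dvd_right (dvd_mul_of_dvd_right h2 _) _))
    exact ⟨11 * p, 11 * q, by rw [hp1]; ring, by rw [hp2]; ring, by rw [hp3]; ring⟩
  by_cases h3 : (3 : ℤ) ∣ x ∧ (3 : ℤ) ∣ N
  · obtain ⟨⟨x1, rfl⟩, ⟨N1, rfl⟩⟩ := h3
    have : (3 : ℤ) ∣ y := Int.prime_three.dvd_of_dvd_pow (n := 2) ⟨3 * N1 ^ 3 - x1 ^ 2, by linarith⟩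
    obtain ⟨y1, rfl⟩ := this
    have : (3 : ℤ) ∣ x1 := Int.prime_three.dvd_of_dvd_pow (n := 2) ⟨N1 ^ 3 - y1 ^ 2, by linarith⟩
    obtain ⟨x2, rfl⟩ := this
    have hN1 : N1 ≠ 0 := fun h0 => hN0 (by rw [h0]; ring)
    obtain ⟨p, q, hp1, hp2, hp3⟩ := IH N1.natAbs (by
        rw [← hk, Int.natAbs_mul]
        have : 0 < N1.natAbs := Int.natAbs_pos.2 hN1
        norm_num; omega) y1 (-x2) N1 rfl (by linarith)
      (by
        have h' : Odd (3 * (3 * x2 + y1)) := by rwa [mul_add]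
        have h'' := Int.Odd.of_mul_right h'
        have : y1 + -x2 = (3 * x2 + y1) - 2 * (2 * x2) := by ring
        rw [this]
        exact h''.sub_even (even_two_mul _))
      (fun r hrp h1 h2 => by
        have hx : (r : ℤ) ∣ 3 * x2 ^ 2 := by
          have : 3 * x2 ^ 2 = N1 ^ 3 - y1 ^ 2 := by linarith
          rw [this]
          exact dvd_sub (dvd_pow h2 (by norm_num)) (dvd_pow h1 (by norm_num))
        rcases (Nat.prime_iff_prime_int.1 hrp).dvd_or_dvd hx with hx | hx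
        · exact Or.inl ((Nat.prime_dvd_prime_iff_eq hrp Nat.prime_three).1
            (by exact_mod_cast hx))
        · exact hr r hrp (dvd_mul_of_dvd_right (dvd_mul_of_dvd_right
            ((Nat.prime_iff_prime_int.1 hrp).dvd_of_dvd_pow hx) _) _)
            (dvd_mul_of_dvd_right h2 _))
    refine ⟨3 * q, -p, ?_, ?_, ?_⟩
    · linear_combination (-9) * hp2
    · linear_combination 3 * hp1
    · linear_combination 3 * hp3
  refine euler_cube_coprime h hpar ?_
  rw [Int.isCoprime_iff_nat_coprime]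
  by_contra hc
  obtain ⟨r, hrp, h1, h2⟩ := Nat.Prime.not_coprime_iff_dvd.1 hc
  rw [← Int.natCast_dvd] at h1 h2
  rcases hr r hrp h1 h2 with rfl | rfl
  · exact h3 ⟨by exact_mod_cast h1, by exact_mod_cast h2⟩
  · exact h11 ⟨by exact_mod_cast h1, by exact_mod_cast h2⟩

end FLTAgent.X11
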