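import Fermat.Agent.X11.TatePoint
import Fermat.Agent.X11.Endgame
import Fermat.Prelude.Def_FLTPrelim_GaloisRep

/-!
# No stable cyclic subgroup of order 11 when the discriminant is a square

The functions `ptX, ptY` of a point of exact order 11 depend only on the cyclic subgroup it
generates, so they are rational if that subgroup is Galois-stable.  With `d² = Δ`, the functions
`d * gUnit / u⁶` and `d * gUnit1 / u⁶` have squares depending only on the subgroup, and are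
invariant under negation; hence those squares are squares in `ℚ`.
-/

set_option autoImplicit false

open WeierstrassCurve WeierstrassCurve.Affine

namespace FLTAgent.X11

variable {K : Type*} [Field K]

section funcs

variable {W : WeierstrassCurve.Affine K}

def ptX : W.Point → K
  | .zero => 0
  | .some x y _ => x11 (tB W x y) (tC W x y)

def ptY : W.Point → K
  | .zero => 0
  | .some x y _ => y11 (tB W x y) (tC W x y)

def ptW (g : K → K → K) (d : K) : W.Point → K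
  | .zero => 0
  | .some x y _ => d * g (tB W x y) (tC W x y) / tU W x y ^ 6

variable [DecidableEq K]

lemma exists_some_of_order {T : W.Point} (hT : addOrderOf T = 11) :
    ∃ x y h, T = Point.some x y h := by
  cases T with
  | zero => rw [← Point.zero_def, addOrderOf_zero] at hT; omega
  | some x y h => exact ⟨x, y, h, rfl⟩

lemma ptXY_two {T : W.Point} (hT : addOrderOf T = 11) :
    ptX (2 • T) = ptX T ∧ ptY (2 • T) = ptY T := by
  obtain ⟨x, y, h, rfl⟩ := exists_some_of_order hT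
  obtain ⟨x', y', h', hh, hb, hc⟩ := two_nsmul_params hT
  have hT' : addOrderOf (Point.some x' y' h') = 11 := by
    rw [← hh, Nat.Coprime.addOrderOf_nsmul (by rw [hT]; decide), hT]
  have hg := good_params hT
  have hg' := good_params hT'
  rw [hb, hc] at hg'
  rw [hh]
  simp only [ptX, ptY, hb, hc]
  exact hg.inv_two hg'

lemma ptW_neg (g : K → K → K) (d : K) {T : W.Point} (hT : addOrderOf T = 11) :
    ptW g d (-T) = ptW g d T := by
  obtain ⟨x, y, h, rfl⟩ := exists_some_of_order hT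
  have h3 := tA3_ne hT
  simp only [Point.neg_some, ptW, tB_neg h3, tC_neg h3, tU_neg h3, Even.neg_pow (by decide : Even 6)]

lemma ptW_sq {g : K → K → K} {d : K} (hd : d ^ 2 = W.Δ) {F : K → K → K}
    (hg : ∀ b c : K, Good b c → (tateCurve b c).Δ * g b c ^ 2 = F (x11 b c) (y11 b c))
    {T : W.Point} (hT : addOrderOf T = 11) :
    ptW g d T ^ 2 = F (ptX T) (ptY T) := by
  obtain ⟨x, y, h, rfl⟩ := exists_some_of_order hT
  have h3 := tA3_ne hT
  have h2 := tA2_ne hT
  have hu := tU_ne h3 h2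
  simp only [ptX, ptY, ptW]
  rw [← hg _ _ (good_params hT), div_pow, mul_pow, hd, Δ_eq_tateCurve h3 h2 h.1]
  field_simp

lemma ptXY_eq {T : W.Point} (hT : addOrderOf T = 11) :
    ptY T ^ 2 + ptY T = ptX T ^ 3 - ptX T ^ 2 - 10 * ptX T - 20 := by
  obtain ⟨x, y, h, rfl⟩ := exists_some_of_order hT
  exact (good_params hT).eq11

/-- Multiples by powers of two. -/
lemma order_two_pow {T : W.Point} (hT : addOrderOf T = 11) (n : ℕ) :
    addOrderOf ((2 ^ n) • T) = 11 := by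
  rw [Nat.Coprime.addOrderOf_nsmul (by rw [hT]; exact Nat.Coprime.pow_right _ (by decide)), hT]

lemma ptXY_two_pow {T : W.Point} (hT : addOrderOf T = 11) (n : ℕ) :
    ptX ((2 ^ n) • T) = ptX T ∧ ptY ((2 ^ n) • T) = ptY T := by
  induction n with
  | zero => simp
  | succ n ih =>
    rw [pow_succ', mul_nsmul']
    obtain ⟨e1, e2⟩ := ptXY_two (order_two_pow hT n)
    exact ⟨e1.trans ih.1, e2.trans ih.2⟩

lemma exists_two_pow {T : W.Point} (hT : addOrderOf T = 11) {k : ℤ} (hk : k • T ≠ 0) :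
    ∃ i : ℕ, k • T = (2 ^ i) • T := by
  have hk11 : ((k : ZMod 11)) ≠ 0 := by
    intro h0
    obtain ⟨j, rfl⟩ := (ZMod.intCast_zmod_eq_zero_iff_dvd k 11).1 h0
    apply hk
    rw [mul_comm, mul_zsmul, natCast_zsmul]
    have h11 := addOrderOf_nsmul_eq_zero T
    rw [hT] at h11
    rw [h11, zsmul_zero]
  obtain ⟨i, -, hi⟩ := (by decide : ∀ a : ZMod 11, a ≠ 0 → ∃ i < 10, a = 2 ^ i) _ hk11
  refine ⟨i, ?_⟩
  rw [← natCast_zsmul T (2 ^ i), zsmul_eq_zsmul_iff_modEq, hT,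
    ← ZMod.intCast_eq_intCast_iff]
  simpa using hi

lemma ptW_periodic (g : K → K → K) (d : K) {T : W.Point} (hT : addOrderOf T = 11) (j : ℕ) :
    ptW g d ((2 ^ (j + 5)) • T) = ptW g d ((2 ^ j) • T) := by
  rw [← ptW_neg g d (order_two_pow hT j)]
  congr 1
  rw [eq_neg_iff_add_eq_zero, ← add_nsmul, pow_add,
    show 2 ^ j * 2 ^ 5 + 2 ^ j = (3 * 2 ^ j) * 11 by ring, mul_nsmul']
  have h11 := addOrderOf_nsmul_eq_zero T
  rw [hT] at h11
  rw [h11, nsmul_zero]

/-- Product over the five points `2ʲ T` up to sign. -/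
def ptProd (g : K → K → K) (d : K) (T : W.Point) : K :=
  ∏ j ∈ Finset.range 5, ptW g d ((2 ^ j) • T)

lemma ptProd_shift (g : K → K → K) (d : K) {T : W.Point} (hT : addOrderOf T = 11) (i : ℕ) :
    ptProd g d ((2 ^ i) • T) = ptProd g d T := by
  induction i with
  | zero => simp
  | succ i ih =>
    rw [← ih]
    simp only [ptProd, Finset.prod_range_succ, Finset.prod_range_zero, one_mul, ← mul_nsmul',
      ← pow_add]
    simp only [show 0 + (i + 1) = 1 + i by omega, show 1 + (i + 1) = 2 + i by omega,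
      show 2 + (i + 1) = 3 + i by omega, show 3 + (i + 1) = 4 + i by omega,
      show 4 + (i + 1) = i + 5 by omega, zero_add, ptW_periodic g d hT]
    ring

end funcs

section galois

open WeierstrassCurve.Affine.Point

variable {E : WeierstrassCurve.Affine ℚ}

local notation "Qbar" => AlgebraicClosure ℚ

variable {T : (E⁄Qbar).Point} (hT : addOrderOf T = 11)
  (hstab : ∀ σ : Qbar ≃ₐ[ℚ] Qbar, ∃ k : ℤ, σ • T = k • T)

lemma map_params (σ : Qbar ≃ₐ[ℚ] Qbar) (x y : Qbar) :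
    tB (E⁄Qbar) (σ x) (σ y) = σ (tB (E⁄Qbar) x y) ∧
    tC (E⁄Qbar) (σ x) (σ y) = σ (tC (E⁄Qbar) x y) ∧
    tU (E⁄Qbar) (σ x) (σ y) = σ (tU (E⁄Qbar) x y) := by
  simp [tB, tC, tU, tA1, tA2, tA3, tL, WeierstrassCurve.baseChange, map_ofNat]

omit hT hstab in
lemma map_x11 (σ : Qbar →+* Qbar) (b c : Qbar) :
    x11 (σ b) (σ c) = σ (x11 b c) ∧ y11 (σ b) (σ c) = σ (y11 b c) ∧
      gUnit (σ b) (σ c) = σ (gUnit b c) ∧ gUnit1 (σ b) (σ c) = σ (gUnit1 b c) := by
  simp [x11, y11, gUnit, gUnit1, isogX, isogY, tT, tV, tR, tS, map_ofNat]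

lemma ptW_smul (g : Qbar → Qbar → Qbar)
    (hg : ∀ (σ : Qbar →+* Qbar) b c, g (σ b) (σ c) = σ (g b c)) (d : ℚ)
    (σ : Qbar ≃ₐ[ℚ] Qbar) (P : (E⁄Qbar).Point) :
    ptW g (d : Qbar) (σ • P) = σ (ptW g (d : Qbar) P) := by
  cases P with
  | zero => exact (_root_.map_zero σ).symm
  | some x y h =>
    rw [algEquiv_smul_def, Point.map_some]
    obtain ⟨h1, h2, h3⟩ := map_params (E := E) σ x y
    simp only [ptW, AlgEquiv.coe_toAlgHom, h1, h2, h3]
    rw [show g (σ (tB _ x y)) (σ (tC _ x y)) = σ (g (tB _ x y) (tC _ x y)) from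
      hg σ.toRingEquiv.toRingHom _ _, map_div₀, map_mul, map_pow, map_ratCast]

lemma ptXY_smul (σ : Qbar ≃ₐ[ℚ] Qbar) (P : (E⁄Qbar).Point) :
    ptX (σ • P) = σ (ptX P) ∧ ptY (σ • P) = σ (ptY P) := by
  cases P with
  | zero => exact ⟨(_root_.map_zero σ).symm, (_root_.map_zero σ).symm⟩
  | some x y h =>
    rw [algEquiv_smul_def, Point.map_some]
    obtain ⟨h1, h2, -⟩ := map_params (E := E) σ x y
    simp only [ptX, ptY, AlgEquiv.coe_toAlgHom, h1, h2]
    exact ⟨(map_x11 σ.toRingEquiv.toRingHom _ _).1, (map_x11 σ.toRingEquiv.toRingHom _ _).2.1⟩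

lemma exists_rat_of_fixed {z : Qbar} (h : ∀ σ : Qbar ≃ₐ[ℚ] Qbar, σ z = z) :
    ∃ q : ℚ, z = (q : Qbar) := by
  have : Algebra.IsAlgebraic ℚ Qbar := AlgebraicClosure.isAlgebraic ℚ
  have : IsAlgClosure ℚ Qbar := ⟨inferInstance, inferInstance⟩
  have : Normal ℚ Qbar := IsAlgClosure.normal ℚ _
  have : IsGalois ℚ Qbar := {}
  obtain ⟨q, hq⟩ := IntermediateField.mem_bot.1 ((InfiniteGalois.mem_bot_iff_fixed z).2 h)
  exact ⟨q, by rw [← hq, eq_ratCast]⟩

include hT hstab in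
lemma smul_eq_two_pow (σ : Qbar ≃ₐ[ℚ] Qbar) : ∃ i : ℕ, σ • T = (2 ^ i) • T := by
  obtain ⟨k, hk⟩ := hstab σ
  rw [hk]
  refine exists_two_pow hT ?_
  rw [← hk]
  intro h0
  have : T = 0 := by simpa using congrArg (σ⁻¹ • ·) h0
  rw [this, addOrderOf_zero] at hT
  omega

include hT hstab in
/-- If `Δ = d²` then the relevant value is a rational square. -/
lemma isSquare_value {d : ℚ} (hd : d ^ 2 = E.Δ) (g : Qbar → Qbar → Qbar)
    (hgσ : ∀ (σ : Qbar →+* Qbar) b c, g (σ b) (σ c) = σ (g b c)) (F : Qbar → Qbar → Qbar)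
    (hgF : ∀ b c : Qbar, Good b c → (tateCurve b c).Δ * g b c ^ 2 = F (x11 b c) (y11 b c))
    {v : ℚ} (hv : F (ptX T) (ptY T) = (v : Qbar)) : IsSquare v := by
  have hdK : ((d : Qbar)) ^ 2 = (E⁄Qbar).Δ := by
    rw [WeierstrassCurve.Affine.baseChange, WeierstrassCurve.baseChange, WeierstrassCurve.map_Δ,
      ← hd, map_pow, eq_ratCast]
  have hsq : ∀ j : ℕ, ptW g (d : Qbar) ((2 ^ j) • T) ^ 2 = (v : Qbar) := by
    intro j
    rw [ptW_sq hdK hgF (order_two_pow hT j), (ptXY_two_pow hT j).1, (ptXY_two_pow hT j).2, hv]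
  have hfix : ∀ σ : Qbar ≃ₐ[ℚ] Qbar, σ (ptProd g (d : Qbar) T) = ptProd g (d : Qbar) T := by
    intro σ
    obtain ⟨i, hi⟩ := smul_eq_two_pow hT hstab σ
    conv_rhs => rw [← ptProd_shift g (d : Qbar) hT i]
    rw [ptProd, ptProd, map_prod]
    refine Finset.prod_congr rfl fun j _ => ?_
    rw [← ptW_smul g hgσ d σ, ← hi]
    congr 1
    exact map_nsmul (DistribSMul.toAddMonoidHom _ σ) _ _
  obtain ⟨P, hP⟩ := exists_rat_of_fixed hfix
  have hP2 : (P : Qbar) ^ 2 = (v : Qbar) ^ 5 := by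
    rw [← hP, ptProd, ← Finset.prod_pow]
    simp only [hsq, Finset.prod_const, Finset.card_range]
  have hP2' : P ^ 2 = v ^ 5 := by exact_mod_cast hP2
  rcases eq_or_ne v 0 with rfl | hv0
  · exact IsSquare.zero
  · exact ⟨P / v ^ 2, by field_simp; linear_combination -hP2'⟩

omit hT hstab in
/-- The main statement. -/
theorem no_stable_order_eleven [E.IsElliptic] (hΔ : IsSquare E.Δ) :
    ¬ ∃ T : (E⁄Qbar).Point, addOrderOf T = 11 ∧
      ∀ σ : Qbar ≃ₐ[ℚ] Qbar, ∃ k : ℤ, σ • T = k • T := by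
  rintro ⟨T, hT, hstab⟩
  obtain ⟨d, hd⟩ := hΔ
  have hd' : d ^ 2 = E.Δ := by rw [hd, sq]
  have hd0 : d ≠ 0 := by
    rintro rfl
    exact E.isUnit_Δ.ne_zero (by rw [hd, zero_mul])
  have hfix : ∀ σ : Qbar ≃ₐ[ℚ] Qbar, σ (ptX T) = ptX T ∧ σ (ptY T) = ptY T := by
    intro σ
    obtain ⟨i, hi⟩ := smul_eq_two_pow hT hstab σ
    rw [← (ptXY_smul σ T).1, ← (ptXY_smul σ T).2, hi]
    exact ptXY_two_pow hT i
  obtain ⟨qx, hx⟩ := exists_rat_of_fixed fun σ => (hfix σ).1
  obtain ⟨qy, hy⟩ := exists_rat_of_fixed fun σ => (hfix σ).2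
  have heq := ptXY_eq hT
  rw [hx, hy] at heq
  refine no_point_11a1 qx qy (by exact_mod_cast heq) (fun hqx => ⟨?_, ?_⟩) ?_
  · exact isSquare_value hT hstab hd' gUnit (fun σ b c => (map_x11 σ b c).2.2.1)
      (fun a b => b - 5 * a + 20) (fun b c h => h.delta) (by rw [hx, hy]; push_cast; rfl)
  · intro h0
    obtain ⟨x, y, h, rfl⟩ := exists_some_of_order hT
    simp only [ptX] at hx
    simp only [ptY] at hy
    have hg := good_params hT
    have h3 := tA3_ne hT
    have h2 := tA2_ne hT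
    have hne := hg.gUnit_ne (by rw [hx]; exact_mod_cast hqx)
    have hΔ0 : (tateCurve (tB (E⁄Qbar) x y) (tC (E⁄Qbar) x y)).Δ ≠ 0 := by
      intro hz
      have := Δ_eq_tateCurve h3 h2 h.1
      rw [hz, mul_zero, WeierstrassCurve.Affine.baseChange, WeierstrassCurve.baseChange,
        WeierstrassCurve.map_Δ, map_eq_zero] at this
      exact E.isUnit_Δ.ne_zero this
    apply mul_ne_zero hΔ0 (pow_ne_zero 2 hne)
    rw [hg.delta, hx, hy]
    exact_mod_cast h0
  · exact isSquare_value hT hstab hd' gUnit1 (fun σ b c => (map_x11 σ b c).2.2.2)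
      (fun a b => (a + 9) * (b + 6) - 5 * (a ^ 2 + 4 * a + 10)) (fun b c h => h.delta1)
      (by rw [hx, hy]; push_cast; rfl)

end galois

end FLTAgent.X11
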