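import Fermat.Agent.X11.X1Eleven

/-!
# Tate parameters of a point of exact order 11 on a Weierstrass curve

`tA1, tA2, tA3` are the coefficients after moving the point to the origin with horizontal tangent;
`tU`, `tB`, `tC` the scaling and the Tate parameters.
-/

set_option autoImplicit false

open WeierstrassCurve WeierstrassCurve.Affine

namespace FLTAgent.X11

variable {K : Type*} [Field K]

section defs

variable (W : WeierstrassCurve.Affine K) (x y : K)

def tA3 : K := 2 * y + W.a₁ * x + W.a₃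
def tL : K := (3 * x ^ 2 + 2 * W.a₂ * x + W.a₄ - W.a₁ * y) / tA3 W x y
def tA2 : K := 3 * x + W.a₂ - tL W x y * W.a₁ - tL W x y ^ 2
def tA1 : K := W.a₁ + 2 * tL W x y
def tU : K := tA3 W x y / tA2 W x y
def tB : K := -tA2 W x y ^ 3 / tA3 W x y ^ 2
def tC : K := 1 - tA1 W x y * tA2 W x y / tA3 W x y

end defs

section identities

variable {W : WeierstrassCurve.Affine K} {x y : K}

lemma tL_mul (h3 : tA3 W x y ≠ 0) :
    tL W x y * tA3 W x y = 3 * x ^ 2 + 2 * W.a₂ * x + W.a₄ - W.a₁ * y :=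
  div_mul_cancel₀ _ h3

lemma tU_ne (h3 : tA3 W x y ≠ 0) (h2 : tA2 W x y ≠ 0) : tU W x y ≠ 0 := div_ne_zero h3 h2

lemma tU_one_sub_tC (h3 : tA3 W x y ≠ 0) (h2 : tA2 W x y ≠ 0) :
    tU W x y * (1 - tC W x y) = W.a₁ + 2 * tL W x y := by
  change tU W x y * (1 - tC W x y) = tA1 W x y
  rw [tU, tC]
  field_simp
  ring

lemma tU_sq_tB (h3 : tA3 W x y ≠ 0) (h2 : tA2 W x y ≠ 0) :
    tU W x y ^ 2 * tB W x y = -tA2 W x y := by
  rw [tU, tB]; field_simp

lemma tU_cube_tB (h3 : tA3 W x y ≠ 0) (h2 : tA2 W x y ≠ 0) :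
    tU W x y ^ 3 * tB W x y = -tA3 W x y := by
  rw [tU, tB]; field_simp

/-- The discriminant in terms of the Tate parameters. -/
lemma Δ_eq_tateCurve (h3 : tA3 W x y ≠ 0) (h2 : tA2 W x y ≠ 0) (he : W.Equation x y) :
    W.Δ = tU W x y ^ 12 * (tateCurve (tB W x y) (tC W x y)).Δ := by
  have hu := tU_ne h3 h2
  let C : VariableChange K := ⟨Units.mk0 _ hu, x, tL W x y, y⟩
  have hC : C • W = tateCurve (tB W x y) (tC W x y) := by
    have hL := tL_mul h3
    rw [tA3] at hL
    ext
    · rw [variableChange_a₁]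
      simp only [C, Units.val_inv_eq_inv_val, Units.val_mk0, tateCurve]
      rw [← tU_one_sub_tC h3 h2, inv_mul_cancel_left₀ hu]
    · rw [variableChange_a₂]
      simp only [C, Units.val_inv_eq_inv_val, Units.val_mk0, tateCurve]
      rw [show W.a₂ - tL W x y * W.a₁ + 3 * x - tL W x y ^ 2 = tA2 W x y by rw [tA2]; ring,
        show tA2 W x y = -(tU W x y ^ 2 * tB W x y) by rw [tU_sq_tB h3 h2, neg_neg]]
      field_simp
    · rw [variableChange_a₃]
      simp only [C, Units.val_inv_eq_inv_val, Units.val_mk0, tateCurve]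
      rw [show W.a₃ + x * W.a₁ + 2 * y = tA3 W x y by rw [tA3]; ring,
        show tA3 W x y = -(tU W x y ^ 3 * tB W x y) by rw [tU_cube_tB h3 h2, neg_neg]]
      field_simp
    · rw [variableChange_a₄]
      simp only [C, Units.val_inv_eq_inv_val, Units.val_mk0, tateCurve]
      rw [mul_eq_zero]
      exact Or.inr (by linear_combination -hL)
    · rw [variableChange_a₆]
      simp only [C, Units.val_inv_eq_inv_val, Units.val_mk0, tateCurve]
      rw [mul_eq_zero]
      rw [equation_iff] at he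
      exact Or.inr (by linear_combination -he)
  rw [← hC, variableChange_Δ]
  simp only [C, Units.val_inv_eq_inv_val, Units.val_mk0]
  field_simp

lemma negY_eq (W : WeierstrassCurve.Affine K) (x y : K) : W.negY x y = y - tA3 W x y := by
  rw [Affine.negY, tA3]; ring

lemma tA3_neg : tA3 W x (W.negY x y) = -tA3 W x y := by
  rw [tA3, tA3, Affine.negY]; ring

lemma tL_neg (h3 : tA3 W x y ≠ 0) : tL W x (W.negY x y) = -tL W x y - W.a₁ := by
  conv_lhs => rw [tL, tA3_neg, negY_eq]
  rw [show 3 * x ^ 2 + 2 * W.a₂ * x + W.a₄ - W.a₁ * (y - tA3 W x y) =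
    (3 * x ^ 2 + 2 * W.a₂ * x + W.a₄ - W.a₁ * y) + W.a₁ * tA3 W x y by ring, ← tL_mul h3]
  field_simp
  ring

lemma tA2_neg (h3 : tA3 W x y ≠ 0) : tA2 W x (W.negY x y) = tA2 W x y := by
  rw [tA2, tA2, tL_neg h3]; ring

lemma tB_neg (h3 : tA3 W x y ≠ 0) : tB W x (W.negY x y) = tB W x y := by
  rw [tB, tB, tA2_neg h3, tA3_neg, neg_sq]

lemma tC_neg (h3 : tA3 W x y ≠ 0) : tC W x (W.negY x y) = tC W x y := by
  rw [tC, tC, tA2_neg h3, tA1, tA1, tL_neg h3, tA3_neg]; field_simp; ring

lemma tU_neg (h3 : tA3 W x y ≠ 0) : tU W x (W.negY x y) = -tU W x y := by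
  rw [tU, tU, tA2_neg h3, tA3_neg, neg_div]

/-- Tate parameters of twice the point. -/
lemma params_two (h3 : tA3 W x y ≠ 0) (h2 : tA2 W x y ≠ 0)
    (hb : tB W x y ≠ 0) (hc : tC W x y ≠ 0) :
    let x' := x + tU W x y ^ 2 * tB W x y
    let y' := y + tL W x y * (tU W x y ^ 2 * tB W x y) + tU W x y ^ 3 * (tB W x y * tC W x y)
    tB W x' y' = bTwo (tB W x y) (tC W x y) ∧ tC W x' y' = cTwo (tB W x y) (tC W x y) := by
  have hu := tU_ne h3 h2
  have e1 := tU_one_sub_tC h3 h2
  have e2 := tU_sq_tB h3 h2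
  have e3 := tU_cube_tB h3 h2
  have hL := tL_mul h3
  intro x' y'
  have p3 : tA3 W x' y' = tU W x y ^ 3 * (tB W x y * tC W x y) := by
    simp only [x', y', tA3] at *
    linear_combination (-(tU W x y ^ 2 * tB W x y)) * e1 + e3
  have pL : tL W x' y' =
      tL W x y + tU W x y * ((tB W x y - tC W x y + tC W x y ^ 2) / tC W x y) := by
    rw [tL, p3]
    simp only [x', y']
    generalize hb' : tB W x y = b at *
    generalize hc' : tC W x y = c at *
    generalize tU W x y = u at *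
    rw [tA2] at e2
    generalize tL W x y = L at *
    generalize tA3 W x y = a3 at *
    field_simp
    linear_combination -hL + 2 * u ^ 2 * b * e2 + L * e3 - u ^ 2 * b * (L - u * c) * e1
  have p2 : tA2 W x' y' = tU W x y ^ 2 * (2 * tB W x y -
      (tB W x y - tC W x y + tC W x y ^ 2) / tC W x y * (1 - tC W x y) -
      ((tB W x y - tC W x y + tC W x y ^ 2) / tC W x y) ^ 2) := by
    rw [tA2, pL]
    simp only [x']
    generalize (tB W x y - tC W x y + tC W x y ^ 2) / tC W x y = l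
    rw [show tA2 W x y = 3 * x + W.a₂ - tL W x y * W.a₁ - tL W x y ^ 2 from rfl] at e2
    linear_combination tU W x y * l * e1 + e2
  have p1 : tA1 W x' y' = tU W x y * (1 - tC W x y +
      2 * ((tB W x y - tC W x y + tC W x y ^ 2) / tC W x y)) := by
    rw [tA1, pL]
    linear_combination -e1
  constructor
  · rw [tB, p2, p3, bTwo]
    generalize tB W x y = b at *
    generalize tC W x y = c at *
    generalize tU W x y = u at *
    generalize (b - c + c ^ 2) / c = l
    field_simp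
  · rw [tC, p1, p2, p3, cTwo]
    generalize tB W x y = b at *
    generalize tC W x y = c at *
    generalize tU W x y = u at *
    generalize (b - c + c ^ 2) / c = l
    field_simp

end identities

section points

variable [DecidableEq K] {W : WeierstrassCurve.Affine K}

/-- `k • T` has Tate coordinates `(X, Y)` relative to `T = (x, y)`. -/
def AtTate {x y : K} (h : W.Nonsingular x y) (k : ℕ) (X Y : K) : Prop :=
  ∃ h' : W.Nonsingular (x + tU W x y ^ 2 * X) (y + tL W x y * (tU W x y ^ 2 * X) + tU W x y ^ 3 * Y),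
    k • Point.some x y h = Point.some _ _ h'

variable {x y : K} {h : W.Nonsingular x y}

lemma some_congr {x₁ y₁ x₂ y₂ : K} {h₁ : W.Nonsingular x₁ y₁} (hx : x₁ = x₂) (hy : y₁ = y₂) :
    ∃ h₂ : W.Nonsingular x₂ y₂, Point.some x₁ y₁ h₁ = Point.some x₂ y₂ h₂ := by
  subst hx hy; exact ⟨h₁, rfl⟩

lemma nsmul_ne_zero_of_not_dvd (hT : addOrderOf (Point.some x y h) = 11) {k : ℕ} (hk : ¬ 11 ∣ k) :
    k • Point.some x y h ≠ 0 := by
  intro h0
  exact hk (hT ▸ addOrderOf_dvd_of_nsmul_eq_zero h0)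

lemma tA3_ne (hT : addOrderOf (Point.some x y h) = 11) : tA3 W x y ≠ 0 := by
  intro h0
  apply nsmul_ne_zero_of_not_dvd hT (k := 2) (by decide)
  rw [two_nsmul]
  exact Point.add_self_of_Y_eq (by rw [negY_eq, h0, sub_zero])

lemma two_nsmul_coords (h3 : tA3 W x y ≠ 0) :
    ∃ h' : W.Nonsingular (x - tA2 W x y)
      (y - tL W x y * tA2 W x y + (tA1 W x y * tA2 W x y - tA3 W x y)),
    2 • Point.some x y h = Point.some _ _ h' := by
  have hy : y ≠ W.negY x y := by
    rw [negY_eq]; intro h0; exact h3 (by linear_combination h0)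
  rw [two_nsmul, Point.add_self_of_Y_ne hy]
  have hs : W.slope x x y y = tL W x y := by
    rw [slope_of_Y_ne rfl hy, tL, negY_eq, sub_sub_cancel]
  apply some_congr
  · rw [Affine.addX, hs, tA2]; ring
  · rw [Affine.addY, Affine.negAddY, Affine.negY, Affine.addX, hs, tA1, tA2, tA3]; ring

lemma nsmul_X_ne (hT : addOrderOf (Point.some x y h) = 11) {k : ℕ} (hk1 : k % 11 ≠ 1)
    (hk10 : k % 11 ≠ 10) {x' y' : K} {h' : W.Nonsingular x' y'}
    (hk : k • Point.some x y h = Point.some x' y' h') : x' ≠ x := by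
  intro hx
  rcases (Point.X_eq_iff (h₁ := h') (h₂ := h)).1 hx with h1 | h1
  · rw [← hk] at h1
    have := nsmul_eq_nsmul_iff_modEq.1 (h1.trans (one_nsmul _).symm)
    rw [hT] at this
    exact hk1 this
  · rw [← hk] at h1
    apply nsmul_ne_zero_of_not_dvd hT (k := k + 1) (by omega)
    rw [succ_nsmul, h1, neg_add_cancel]

lemma tA2_ne (hT : addOrderOf (Point.some x y h) = 11) : tA2 W x y ≠ 0 := by
  obtain ⟨h', hh⟩ := two_nsmul_coords (h := h) (tA3_ne hT)
  intro h0
  exact nsmul_X_ne hT (k := 2) (by decide) (by decide) hh (by rw [h0, sub_zero])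

lemma atTate_two (hT : addOrderOf (Point.some x y h) = 11) :
    AtTate h 2 (tB W x y) (tB W x y * tC W x y) := by
  obtain ⟨h', hh⟩ := two_nsmul_coords (h := h) (tA3_ne hT)
  obtain ⟨h'', hh'⟩ := some_congr (h₁ := h')
    (x₂ := x + tU W x y ^ 2 * tB W x y)
    (y₂ := y + tL W x y * (tU W x y ^ 2 * tB W x y) + tU W x y ^ 3 * (tB W x y * tC W x y))
    (by rw [tU_sq_tB (tA3_ne hT) (tA2_ne hT)]; ring)
    (by
      rw [← mul_assoc (tU W x y ^ 3), tU_cube_tB (tA3_ne hT) (tA2_ne hT),
        tU_sq_tB (tA3_ne hT) (tA2_ne hT), tC]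
      have := tA3_ne hT
      field_simp
      ring)
  exact ⟨h'', hh.trans hh'⟩

/-- Adding `T` in Tate coordinates. -/
lemma atTate_succ (hT : addOrderOf (Point.some x y h) = 11) {k : ℕ} {X Y : K}
    (hk1 : k % 11 ≠ 1) (hk10 : k % 11 ≠ 10) (hk : AtTate h k X Y) :
    X ≠ 0 ∧ ∀ X', X' = (Y / X) ^ 2 + (1 - tC W x y) * (Y / X) + tB W x y - X →
      AtTate h (k + 1) X' (-(Y / X) * X' - (1 - tC W x y) * X' + tB W x y) := by
  obtain ⟨h', hh⟩ := hk
  have h3 := tA3_ne hT
  have h2 := tA2_ne hT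
  have hne := nsmul_X_ne hT hk1 hk10 hh
  have hX : X ≠ 0 := by rintro rfl; exact hne (by ring)
  refine ⟨hX, ?_⟩
  intro X' hX'
  have e1 := tU_one_sub_tC h3 h2
  have e2 := tU_sq_tB h3 h2
  have e3 := tU_cube_tB h3 h2
  have hu := tU_ne h3 h2
  have hs : W.slope x (x + tU W x y ^ 2 * X) y
      (y + tL W x y * (tU W x y ^ 2 * X) + tU W x y ^ 3 * Y) =
      tL W x y + tU W x y * (Y / X) := by
    rw [slope_of_X_ne hne.symm, sub_add_cancel_left, add_assoc, sub_add_cancel_left, neg_div_neg_eq]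
    field_simp
  have hsum : (k + 1) • Point.some x y h = Point.some x y h + Point.some _ _ h' := by
    rw [succ_nsmul', hh]
  rw [Point.add_of_X_ne hne.symm] at hsum
  obtain ⟨h'', hh'⟩ := some_congr (h₁ := nonsingular_add h h' fun hxy => hne hxy.left.symm)
    (x₂ := x + tU W x y ^ 2 * X')
    (y₂ := y + tL W x y * (tU W x y ^ 2 * X') + tU W x y ^ 3 *
      (-(Y / X) * X' - (1 - tC W x y) * X' + tB W x y))
    (by
      rw [Affine.addX, hs]
      rw [show tA2 W x y = 3 * x + W.a₂ - tL W x y * W.a₁ - tL W x y ^ 2 from rfl] at e2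
      generalize Y / X = m at *
      subst hX'
      linear_combination -(tU W x y * m) * e1 - e2)
    (by
      rw [Affine.addY, Affine.negAddY, Affine.negY, Affine.addX, hs]
      rw [show tA3 W x y = 2 * y + W.a₁ * x + W.a₃ from rfl] at e3
      rw [show tA2 W x y = 3 * x + W.a₂ - tL W x y * W.a₁ - tL W x y ^ 2 from rfl] at e2
      generalize Y / X = m at *
      subst hX'
      generalize tB W x y = b at *
      generalize tC W x y = c at *
      generalize tU W x y = u at *
      generalize tL W x y = L at *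
      linear_combination (u * m * (L + u * m + W.a₁) + u ^ 2 * (m ^ 2 + (1 - c) * m + b - X)) * e1
        + (L + u * m + W.a₁) * e2 - e3)
  exact ⟨h'', hsum.trans hh'⟩

/-- The Tate parameters of a point of order 11 satisfy the equation of `X₁(11)`. -/
lemma good_params (hT : addOrderOf (Point.some x y h) = 11) : Good (tB W x y) (tC W x y) := by
  have h2 := atTate_two hT
  set b := tB W x y with hb'
  set c := tC W x y with hc'
  obtain ⟨hb, s2⟩ := atTate_succ hT (by decide) (by decide) h2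
  rw [← hb', ← hc'] at s2
  have h3 := s2 c (by field_simp; ring)
  obtain ⟨hc, s3⟩ := atTate_succ hT (by decide) (by decide) h3
  rw [← hb', ← hc'] at s3
  have e3 : -(b * c / b) * c - (1 - c) * c + b = b - c := by field_simp; ring
  rw [e3] at s3
  set r := tR b c with hr
  have hbr : b = c * r := by rw [hr, tR]; field_simp
  have hbc : (b - c) / c = r - 1 := by rw [hbr]; field_simp
  rw [hbc] at s3
  have h4 := s3 (r * (r - 1)) (by linear_combination (-1 : K) * hbr)
  obtain ⟨hr', s4⟩ := atTate_succ hT (by decide) (by decide) h4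
  rw [← hb', ← hc'] at s4
  have hr0 : r ≠ 0 := left_ne_zero_of_mul hr'
  have hr1 : r - 1 ≠ 0 := right_ne_zero_of_mul hr'
  have hsub : b - c ≠ 0 := by
    rw [hbr, show c * r - c = c * (r - 1) by ring]; exact mul_ne_zero hc hr1
  set s := tS b c with hs
  have hcs : c = s * (r - 1) := by
    rw [hs, tS, hbr]; field_simp
  have e4 : (-(r - 1) * (r * (r - 1)) - (1 - c) * (r * (r - 1)) + b) / (r * (r - 1)) =
      r * (s - 1) := by
    rw [div_eq_iff (mul_ne_zero hr0 hr1), hbr, hcs]; ring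
  rw [e4] at s4
  have h5 := s4 (r * s * (s - 1)) (by rw [hbr, hcs]; ring)
  obtain ⟨hs', s5⟩ := atTate_succ hT (by decide) (by decide) h5
  rw [← hb', ← hc'] at s5
  have hs1 : s - 1 ≠ 0 := right_ne_zero_of_mul hs'
  have hs0 : s ≠ 0 := right_ne_zero_of_mul (left_ne_zero_of_mul hs')
  refine ⟨hb, hc, hsub, fun h1 => hs1 (by rw [hs, h1, sub_self]), ?_⟩
  obtain ⟨h6', hh6⟩ := s5 _ rfl
  obtain ⟨h5', hh5⟩ := h5
  -- `6T = -5T`, so the `x`-coordinates agree
  have hneg : (6 : ℕ) • Point.some x y h = -((5 : ℕ) • Point.some x y h) := by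
    rw [eq_neg_iff_add_eq_zero, ← add_nsmul]
    have := addOrderOf_nsmul_eq_zero (Point.some x y h)
    rw [hT] at this
    exact this
  norm_num at hh6 hh5
  rw [hh6, hh5, Point.neg_some, Point.some.injEq] at hneg
  have hX := mul_left_cancel₀ (pow_ne_zero 2 (tU_ne (tA3_ne hT) (tA2_ne hT)))
    (add_left_cancel hneg.1)
  rw [← hr, ← hs]
  clear_value r s
  rw [hbr, hcs] at hX
  have key : r * s * (r ^ 2 - r * s ^ 3 + 3 * r * s ^ 2 - 4 * r * s + s) = 0 := by
    field_simp at hX
    linear_combination r * hX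
  exact (mul_eq_zero.1 key).resolve_left (mul_ne_zero hr0 hs0)

/-- Coordinates and parameters of `2 • T`. -/
lemma two_nsmul_params (hT : addOrderOf (Point.some x y h) = 11) :
    ∃ (x' y' : K) (h' : W.Nonsingular x' y'), 2 • Point.some x y h = Point.some x' y' h' ∧
      tB W x' y' = bTwo (tB W x y) (tC W x y) ∧ tC W x' y' = cTwo (tB W x y) (tC W x y) := by
  obtain ⟨h', hh⟩ := atTate_two hT
  have hg := good_params hT
  exact ⟨_, _, h', hh, params_two (tA3_ne hT) (tA2_ne hT) hg.b_ne hg.c_ne⟩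

end points

end FLTAgent.X11
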