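import Mathlib

/-!
# Tate parameters of a point of order 11 and the curve `X₁(11)`

A point of order 11 has Tate parameters `(b, c)`, hence gives a point `(tT, tV)` of
`V² + V = T³ - T²`, and through the 5-isogeny a point `(x11, y11)` of
`y² + y = x³ - x² - 10x - 20`.  The latter depends only on the subgroup generated by the point,
and `Δ(b, c) * gUnit² = y11 - 5 x11 + 20`.
-/

set_option autoImplicit false

namespace FLTAgent.X11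

variable {K : Type*} [Field K]

/-- Curve in Tate normal form. -/
def tateCurve (b c : K) : WeierstrassCurve K := ⟨1 - c, -b, -b, 0, 0⟩

lemma tateCurve_Δ (b c : K) : (tateCurve b c).Δ =
    b ^ 3 * (16 * b ^ 2 - 8 * b * c ^ 2 - 20 * b * c + b + c * (c - 1) ^ 3) := by
  simp only [tateCurve, WeierstrassCurve.Δ, WeierstrassCurve.b₂, WeierstrassCurve.b₄,
    WeierstrassCurve.b₆, WeierstrassCurve.b₈]
  ring

def tR (b c : K) : K := b / c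
def tS (b c : K) : K := c ^ 2 / (b - c)
def tT (b c : K) : K := 1 - (b - c) / c ^ 2
def tV (b c : K) : K :=
  (tR b c - tS b c ^ 3 + 2 * tS b c ^ 2 - 2 * tS b c) / (tS b c ^ 2 * (tS b c - 1))

/-- `x`-coordinate of the image under the 5-isogeny. -/
def isogX (T : K) : K :=
  (T ^ 3 * (T - 1) ^ 2 + (T - 1) ^ 2 + 2 * T ^ 2 * (T - 1) + T ^ 2) / (T ^ 2 * (T - 1) ^ 2)

/-- `y`-coordinate of the image under the 5-isogeny. -/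
def isogY (T V : K) : K :=
  (V * (T ^ 3 * (T - 1) ^ 3 - 2 * (T - 1) ^ 3 - 2 * T ^ 3 * (T - 1) - 2 * T ^ 3)
    - (T - 1) ^ 3 - T ^ 3 * (T - 1) - T ^ 3) / (T ^ 3 * (T - 1) ^ 3)

def x11 (b c : K) : K := isogX (tT b c)
def y11 (b c : K) : K := isogY (tT b c) (tV b c)

/-- Modular unit relating the discriminant and `y11 - 5 x11 + 20`. -/
def gUnit (b c : K) : K :=
  (1 - 4 * tT b c ^ 2 + 3 * tT b c ^ 3 - tT b c ^ 4
    + tV b c * (1 - 3 * tT b c ^ 2 + tT b c ^ 3)) / (tT b c ^ 4 * (tT b c - 1)) / (b ^ 2 * c)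

/-- Companion of `gUnit`, regular where `x11 = 5`. -/
def gUnit1 (b c : K) : K :=
  (-tV b c * tT b c ^ 5 + 4 * tV b c * tT b c ^ 4 - 3 * tV b c * tT b c ^ 3 + tV b c * tT b c ^ 2
    - tV b c * tT b c + tV b c + tT b c ^ 7 - 3 * tT b c ^ 5 + 5 * tT b c ^ 4 - 2 * tT b c ^ 3
    - tT b c + 1) / (tT b c ^ 5 * (tT b c - 1) ^ 2) / (b ^ 2 * c)

/-- Non-degeneracy and the condition of order 11. -/
structure Good (b c : K) : Prop where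
  b_ne : b ≠ 0
  c_ne : c ≠ 0
  sub_ne : b - c ≠ 0
  s_ne : tS b c ≠ 1
  rel : tR b c ^ 2 - tR b c * tS b c ^ 3 + 3 * tR b c * tS b c ^ 2 - 4 * tR b c * tS b c + tS b c = 0

namespace Good

variable {b c : K}

lemma s_ne_zero (h : Good b c) : tS b c ≠ 0 :=
  div_ne_zero (pow_ne_zero _ h.c_ne) h.sub_ne

lemma tT_eq (h : Good b c) : tT b c = 1 - 1 / tS b c := by
  rw [tT, tS, one_div_div]

lemma T_ne_one (h : Good b c) : tT b c - 1 ≠ 0 := by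
  rw [h.tT_eq, sub_sub_cancel_left, neg_ne_zero]
  exact one_div_ne_zero h.s_ne_zero

lemma T_ne_zero (h : Good b c) : tT b c ≠ 0 := by
  rw [h.tT_eq, sub_ne_zero, ne_comm, ne_eq, one_div, inv_eq_one]
  exact h.s_ne

lemma curve (h : Good b c) : tV b c ^ 2 + tV b c - tT b c ^ 3 + tT b c ^ 2 = 0 := by
  have hs := h.s_ne_zero
  have hs1 : tS b c - 1 ≠ 0 := sub_ne_zero.2 h.s_ne
  have hrel := h.rel
  rw [h.tT_eq, tV]
  generalize tR b c = r at *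
  generalize tS b c = s at *
  field_simp
  linear_combination hrel

/-- `(b, c)` in terms of `(T, V)`. -/
lemma param (h : Good b c) :
    b = (tT b c * tV b c + 2 * tT b c ^ 2 - 2 * tT b c + 1) *
        (tT b c * tV b c + 2 * tT b c ^ 2 - 2 * tT b c + 1 - (1 - tT b c) ^ 3) / (1 - tT b c) ^ 7 ∧
    c = (tT b c * tV b c + 2 * tT b c ^ 2 - 2 * tT b c + 1 - (1 - tT b c) ^ 3) /
        (1 - tT b c) ^ 4 := by
  have hs := h.s_ne_zero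
  have hs1 : tS b c - 1 ≠ 0 := sub_ne_zero.2 h.s_ne
  have hb : b = tR b c * tS b c * (tR b c - 1) := by
    have := h.c_ne; have := h.sub_ne
    rw [tR, tS]; field_simp
  have hc : c = tS b c * (tR b c - 1) := by
    have := h.c_ne; have := h.sub_ne
    rw [tR, tS]; field_simp
  rw [h.tT_eq, tV]
  generalize tR b c = r at *
  generalize tS b c = s at *
  subst hb hc
  constructor <;> field_simp <;> ring

lemma eq11 (h : Good b c) :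
    y11 b c ^ 2 + y11 b c = x11 b c ^ 3 - x11 b c ^ 2 - 10 * x11 b c - 20 := by
  have hT := h.T_ne_zero
  have hT1 := h.T_ne_one
  have hC := h.curve
  rw [y11, x11, isogX, isogY]
  generalize tT b c = T at *
  generalize tV b c = V at *
  field_simp
  linear_combination (
    1*T^12 - 6*T^11 + 11*T^10 - 12*T^9 + 31*T^8 - 54*T^7 + 61*T^6 - 60*T^5 + 76*T^4 - 84*T^3
    + 60*T^2 - 24*T + 4) * hC

lemma delta (h : Good b c) :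
    (tateCurve b c).Δ * gUnit b c ^ 2 = y11 b c - 5 * x11 b c + 20 := by
  have hT := h.T_ne_zero
  have hT1 := h.T_ne_one
  have hd : 1 - tT b c ≠ 0 := fun h0 => hT1 (by linear_combination -h0)
  have hC := h.curve
  have hb := h.b_ne
  have hc := h.c_ne
  obtain ⟨pb, pc⟩ := h.param
  rw [tateCurve_Δ, gUnit, y11, x11, isogX, isogY]
  generalize tT b c = T at *
  generalize tV b c = V at *
  have hR1 : T * V + 2 * T ^ 2 - 2 * T + 1 - (1 - T) ^ 3 ≠ 0 := fun h0 => hc (by rw [pc, h0, zero_div])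
  have hR0 : T * V + 2 * T ^ 2 - 2 * T + 1 ≠ 0 := fun h0 => hb (by rw [pb, h0, zero_mul, zero_div])
  generalize hR1d : T * V + 2 * T ^ 2 - 2 * T + 1 - (1 - T) ^ 3 = R1 at *
  generalize hR0d : T * V + 2 * T ^ 2 - 2 * T + 1 = R0 at *
  subst pb pc
  have key : (16 * (R0 * R1) ^ 2 * (1 - T) ^ 2 - 8 * (R0 * R1) * R1 ^ 2 * (1 - T)
      - 20 * (R0 * R1) * R1 * (1 - T) ^ 5 + R0 * R1 * (1 - T) ^ 9
      + R1 * (R1 - (1 - T) ^ 4) ^ 3) *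
      (1 - 4 * T ^ 2 + 3 * T ^ 3 - T ^ 4 + V * (1 - 3 * T ^ 2 + T ^ 3)) ^ 2 =
      -((V * (T ^ 3 * (T - 1) ^ 3 - 2 * (T - 1) ^ 3 - 2 * T ^ 3 * (T - 1) - 2 * T ^ 3)
          - (T - 1) ^ 3 - T ^ 3 * (T - 1) - T ^ 3)
        - 5 * (T ^ 3 * (T - 1) ^ 2 + (T - 1) ^ 2 + 2 * T ^ 2 * (T - 1) + T ^ 2) * T * (T - 1)
        + 20 * T ^ 3 * (T - 1) ^ 3) * R0 * R1 ^ 3 * T ^ 5 := by
    subst hR1d hR0d
    linear_combination (
      16*V^4*T^12 - 120*V^4*T^11 + 297*V^4*T^10 - 238*V^4*T^9 - 63*V^4*T^8 + 162*V^4*T^7 -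
      38*V^4*T^6 - 24*V^4*T^5 + 9*V^4*T^4 + 1*V^3*T^15 + 49*V^3*T^14 - 454*V^3*T^13 +
      1475*V^3*T^12 - 2289*V^3*T^11 + 1815*V^3*T^10 - 309*V^3*T^9 - 805*V^3*T^8 + 652*V^3*T^7
      - 54*V^3*T^6 - 108*V^3*T^5 + 29*V^3*T^4 + 1*V^3*T^3 + 2*V^2*T^17 + 59*V^2*T^16 -
      645*V^2*T^15 + 2551*V^2*T^14 - 5482*V^2*T^13 + 7463*V^2*T^12 - 6302*V^2*T^11 +
      2430*V^2*T^10 + 1010*V^2*T^9 - 1867*V^2*T^8 + 856*V^2*T^7 + 59*V^2*T^6 - 165*V^2*T^5 +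
      31*V^2*T^4 + 3*V^2*T^3 + 1*V*T^19 + 37*V*T^18 - 429*V*T^17 + 1938*V*T^16 - 5106*V*T^15 +
      9143*V*T^14 - 11560*V*T^13 + 10145*V*T^12 - 5436*V*T^11 + 534*V*T^10 + 1767*V*T^9 -
      1470*V*T^8 + 403*V*T^7 + 121*V*T^6 - 101*V*T^5 + 11*V*T^4 + 3*V*T^3 + 11*T^20 - 119*T^19
      + 577*T^18 - 1731*T^17 + 3676*T^16 - 5817*T^15 + 6991*T^14 - 6300*T^13 + 3990*T^12 -
      1378*T^11 - 261*T^10 + 631*T^9 - 333*T^8 + 36*T^7 + 46*T^6 - 20*T^5 + 1*T^3) * hC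
  generalize hn : 1 - 4 * T ^ 2 + 3 * T ^ 3 - T ^ 4 + V * (1 - 3 * T ^ 2 + T ^ 3) = n at *
  obtain ⟨Q0, hQ0⟩ : ∃ Q0, Q0 = 16 * (R0 * R1) ^ 2 * (1 - T) ^ 2
      - 8 * (R0 * R1) * R1 ^ 2 * (1 - T) - 20 * (R0 * R1) * R1 * (1 - T) ^ 5
      + R0 * R1 * (1 - T) ^ 9 + R1 * (R1 - (1 - T) ^ 4) ^ 3 := ⟨_, rfl⟩
  rw [← hQ0] at key
  have eQ : 16 * (R0 * R1 / (1 - T) ^ 7) ^ 2
      - 8 * (R0 * R1 / (1 - T) ^ 7) * (R1 / (1 - T) ^ 4) ^ 2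
      - 20 * (R0 * R1 / (1 - T) ^ 7) * (R1 / (1 - T) ^ 4) + R0 * R1 / (1 - T) ^ 7
      + R1 / (1 - T) ^ 4 * (R1 / (1 - T) ^ 4 - 1) ^ 3 = Q0 / (1 - T) ^ 16 := by
    rw [hQ0]; field_simp
  have eL : (R0 * R1 / (1 - T) ^ 7) ^ 3 * (Q0 / (1 - T) ^ 16) *
      (n / (T ^ 4 * (T - 1)) / ((R0 * R1 / (1 - T) ^ 7) ^ 2 * (R1 / (1 - T) ^ 4))) ^ 2 =
      Q0 * n ^ 2 / (T ^ 8 * (1 - T) ^ 3 * (R0 * R1 ^ 3)) := by field_simp; ring
  have eR : ∀ a b : K, a / (T ^ 3 * (T - 1) ^ 3) - 5 * (b / (T ^ 2 * (T - 1) ^ 2)) + 20 =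
      (a - 5 * b * T * (T - 1) + 20 * T ^ 3 * (T - 1) ^ 3) / (T ^ 3 * (T - 1) ^ 3) := by
    intro a b; field_simp
  rw [eQ, eL, eR, div_eq_div_iff
    (by simp [hT, hd, hR0, hR1]) (by simp [hT, hT1])]
  linear_combination (T ^ 3 * (T - 1) ^ 3) * key

lemma delta1 (h : Good b c) :
    (tateCurve b c).Δ * gUnit1 b c ^ 2 =
      (x11 b c + 9) * (y11 b c + 6) - 5 * (x11 b c ^ 2 + 4 * x11 b c + 10) := by
  have hT := h.T_ne_zero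
  have hT1 := h.T_ne_one
  have hd : 1 - tT b c ≠ 0 := fun h0 => hT1 (by linear_combination -h0)
  have hC := h.curve
  have hb := h.b_ne
  have hc := h.c_ne
  obtain ⟨pb, pc⟩ := h.param
  rw [tateCurve_Δ, gUnit1, y11, x11, isogX, isogY]
  generalize tT b c = T at *
  generalize tV b c = V at *
  have hR1 : T * V + 2 * T ^ 2 - 2 * T + 1 - (1 - T) ^ 3 ≠ 0 := fun h0 => hc (by rw [pc, h0, zero_div])
  have hR0 : T * V + 2 * T ^ 2 - 2 * T + 1 ≠ 0 := fun h0 => hb (by rw [pb, h0, zero_mul, zero_div])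
  generalize hR1d : T * V + 2 * T ^ 2 - 2 * T + 1 - (1 - T) ^ 3 = R1 at *
  generalize hR0d : T * V + 2 * T ^ 2 - 2 * T + 1 = R0 at *
  subst pb pc
  have key : (16 * (R0 * R1) ^ 2 * (1 - T) ^ 2 - 8 * (R0 * R1) * R1 ^ 2 * (1 - T)
      - 20 * (R0 * R1) * R1 * (1 - T) ^ 5 + R0 * R1 * (1 - T) ^ 9
      + R1 * (R1 - (1 - T) ^ 4) ^ 3) *
      (-V * T ^ 5 + 4 * V * T ^ 4 - 3 * V * T ^ 3 + V * T ^ 2 - V * T + V + T ^ 7 - 3 * T ^ 5 + 5 * T ^ 4 - 2 * T ^ 3 - T + 1) ^ 2 =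
      -((((T ^ 3 * (T - 1) ^ 2 + (T - 1) ^ 2 + 2 * T ^ 2 * (T - 1) + T ^ 2) + 9 * T ^ 2 * (T - 1) ^ 2) *
          ((V * (T ^ 3 * (T - 1) ^ 3 - 2 * (T - 1) ^ 3 - 2 * T ^ 3 * (T - 1) - 2 * T ^ 3)
          - (T - 1) ^ 3 - T ^ 3 * (T - 1) - T ^ 3) + 6 * T ^ 3 * (T - 1) ^ 3))
        - 5 * ((T ^ 3 * (T - 1) ^ 2 + (T - 1) ^ 2 + 2 * T ^ 2 * (T - 1) + T ^ 2) ^ 2 + 4 * (T ^ 3 * (T - 1) ^ 2 + (T - 1) ^ 2 + 2 * T ^ 2 * (T - 1) + T ^ 2) * T ^ 2 * (T - 1) ^ 2 + 10 * T ^ 4 * (T - 1) ^ 4) * T * (T - 1)) * R0 * R1 ^ 3 * T ^ 5 := by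
    subst hR1d hR0d
    linear_combination (
      16*V^4*T^16 - 152*V^4*T^15 + 553*V^4*T^14 - 1016*V^4*T^13 + 1126*V^4*T^12 - 946*V^4*T^11
      + 795*V^4*T^10 - 632*V^4*T^9 + 375*V^4*T^8 - 176*V^4*T^7 + 91*V^4*T^6 - 42*V^4*T^5 +
      9*V^4*T^4 + 1*V^3*T^20 + 4*V^3*T^19 - 15*V^3*T^18 - 293*V^3*T^17 + 1867*V^3*T^16 -
      5023*V^3*T^15 + 8171*V^3*T^14 - 9283*V^3*T^13 + 8291*V^3*T^12 - 6649*V^3*T^11 +
      5079*V^3*T^10 - 3368*V^3*T^9 + 1771*V^3*T^8 - 822*V^3*T^7 + 401*V^3*T^6 - 157*V^3*T^5 +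
      27*V^3*T^4 + 1*V^3*T^3 + 3*V^2*T^22 + 5*V^2*T^21 - 110*V^2*T^20 + 97*V^2*T^19 +
      1532*V^2*T^18 - 6936*V^2*T^17 + 15942*V^2*T^16 - 24375*V^2*T^15 + 27503*V^2*T^14 -
      24875*V^2*T^13 + 19751*V^2*T^12 - 14662*V^2*T^11 + 9946*V^2*T^10 - 5743*V^2*T^9 +
      2796*V^2*T^8 - 1297*V^2*T^7 + 598*V^2*T^6 - 200*V^2*T^5 + 25*V^2*T^4 + 3*V^2*T^3 +
      3*V*T^24 - 2*V*T^23 - 100*V*T^22 + 383*V*T^21 - 133*V*T^20 - 2732*V*T^19 + 10261*V*T^18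
      - 21347*V*T^17 + 30955*V*T^16 - 34099*V*T^15 + 30377*V*T^14 - 23474*V*T^13 +
      16827*V*T^12 - 11353*V*T^11 + 6867*V*T^10 - 3583*V*T^9 + 1693*V*T^8 - 802*V*T^7 +
      348*V*T^6 - 96*V*T^5 + 5*V*T^4 + 3*V*T^3 + 1*T^26 - 3*T^25 - 21*T^24 + 140*T^23 -
      304*T^22 + 16*T^21 + 1690*T^20 - 5416*T^19 + 10279*T^18 - 14000*T^17 + 14651*T^16 -
      12320*T^15 + 8785*T^14 - 5728*T^13 + 3633*T^12 - 2212*T^11 + 1218*T^10 - 608*T^9 +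
      303*T^8 - 152*T^7 + 60*T^6 - 11*T^5 - 2*T^4 + 1*T^3) * hC
  generalize hn : -V * T ^ 5 + 4 * V * T ^ 4 - 3 * V * T ^ 3 + V * T ^ 2 - V * T + V + T ^ 7 - 3 * T ^ 5 + 5 * T ^ 4 - 2 * T ^ 3 - T + 1 = n at *
  obtain ⟨Q0, hQ0⟩ : ∃ Q0, Q0 = 16 * (R0 * R1) ^ 2 * (1 - T) ^ 2
      - 8 * (R0 * R1) * R1 ^ 2 * (1 - T) - 20 * (R0 * R1) * R1 * (1 - T) ^ 5
      + R0 * R1 * (1 - T) ^ 9 + R1 * (R1 - (1 - T) ^ 4) ^ 3 := ⟨_, rfl⟩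
  rw [← hQ0] at key
  have eQ : 16 * (R0 * R1 / (1 - T) ^ 7) ^ 2
      - 8 * (R0 * R1 / (1 - T) ^ 7) * (R1 / (1 - T) ^ 4) ^ 2
      - 20 * (R0 * R1 / (1 - T) ^ 7) * (R1 / (1 - T) ^ 4) + R0 * R1 / (1 - T) ^ 7
      + R1 / (1 - T) ^ 4 * (R1 / (1 - T) ^ 4 - 1) ^ 3 = Q0 / (1 - T) ^ 16 := by
    rw [hQ0]; field_simp
  have eL : (R0 * R1 / (1 - T) ^ 7) ^ 3 * (Q0 / (1 - T) ^ 16) *
      (n / (T ^ 5 * (T - 1) ^ 2) / ((R0 * R1 / (1 - T) ^ 7) ^ 2 * (R1 / (1 - T) ^ 4))) ^ 2 =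
      Q0 * n ^ 2 / (T ^ 10 * (T - 1) ^ 4 * (1 - T) * (R0 * R1 ^ 3)) := by field_simp
  have eR : ∀ a b : K, (b / (T ^ 2 * (T - 1) ^ 2) + 9) * (a / (T ^ 3 * (T - 1) ^ 3) + 6) -
      5 * ((b / (T ^ 2 * (T - 1) ^ 2)) ^ 2 + 4 * (b / (T ^ 2 * (T - 1) ^ 2)) + 10) =
      ((b + 9 * T ^ 2 * (T - 1) ^ 2) * (a + 6 * T ^ 3 * (T - 1) ^ 3)
        - 5 * (b ^ 2 + 4 * b * T ^ 2 * (T - 1) ^ 2 + 10 * T ^ 4 * (T - 1) ^ 4) * T * (T - 1)) /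
      (T ^ 5 * (T - 1) ^ 5) := by
    intro a b; field_simp
  rw [eQ, eL, eR, div_eq_div_iff
    (by simp [hT, hT1, hd, hR0, hR1]) (by simp [hT, hT1])]
  linear_combination (T ^ 5 * (T - 1) ^ 5) * key

/-- Where the unit `gUnit` vanishes, `x11 = 5`. -/
lemma gUnit_ne (h : Good b c) (hx : x11 b c ≠ 5) : gUnit b c ≠ 0 := by
  have hT := h.T_ne_zero
  have hT1 := h.T_ne_one
  have hC := h.curve
  intro h0
  apply hx
  have hb := h.b_ne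
  have hc := h.c_ne
  rw [gUnit] at h0
  rw [x11, isogX]
  generalize tT b c = T at *
  generalize tV b c = V at *
  have hn : 1 - 4 * T ^ 2 + 3 * T ^ 3 - T ^ 4 + V * (1 - 3 * T ^ 2 + T ^ 3) = 0 := by
    simpa [hT, hT1, hb, hc] using h0
  have key : (T ^ 3 * (T - 1) ^ 2 + (T - 1) ^ 2 + 2 * T ^ 2 * (T - 1) + T ^ 2) - 5 * (T ^ 2 * (T - 1) ^ 2) = 0 := by
    refine (mul_eq_zero.1 (?_ : T ^ 3 * (T - 1) * ((T ^ 3 * (T - 1) ^ 2 + (T - 1) ^ 2 + 2 * T ^ 2 * (T - 1) + T ^ 2) - 5 * (T ^ 2 * (T - 1) ^ 2)) = 0)).resolve_left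
      (mul_ne_zero (pow_ne_zero _ hT) hT1)
    linear_combination -(1 - 4 * T ^ 2 + 3 * T ^ 3 - T ^ 4 - (1 - 3 * T ^ 2 + T ^ 3)
      - V * (1 - 3 * T ^ 2 + T ^ 3)) * hn + (
        -1*T^6 + 6*T^5 - 9*T^4 - 2*T^3 + 6*T^2 - 1) * hC
  rw [div_eq_iff (mul_ne_zero (pow_ne_zero _ hT) (pow_ne_zero _ hT1))]
  linear_combination key

end Good

/-- Tate parameters of twice the point. -/
def bTwo (b c : K) : K :=
  -(2 * b - (b - c + c ^ 2) / c * (1 - c) - ((b - c + c ^ 2) / c) ^ 2) ^ 3 / (b * c) ^ 2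

/-- Tate parameters of twice the point. -/
def cTwo (b c : K) : K :=
  1 - (1 - c + 2 * ((b - c + c ^ 2) / c)) *
    (2 * b - (b - c + c ^ 2) / c * (1 - c) - ((b - c + c ^ 2) / c) ^ 2) / (b * c)

namespace Good

variable {b c : K}

/-- Doubling is the translation by `(1, 0)` on `X₁(11)`. -/
lemma two_eq (h : Good b c) (h2 : Good (bTwo b c) (cTwo b c)) :
    tT (bTwo b c) (cTwo b c) = (tT b c ^ 2 - tT b c - tV b c) / (tT b c - 1) ^ 2 ∧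
    tV (bTwo b c) (cTwo b c) =
      (-tV b c * (tT b c - 1 - tV b c) - (tT b c - 1) ^ 3) / (tT b c - 1) ^ 3 := by
  have hs := h.s_ne_zero
  have hs1 : tS b c - 1 ≠ 0 := sub_ne_zero.2 h.s_ne
  have hcne := h.c_ne
  have hbne := h.b_ne
  have hb : b = tR b c * tS b c * (tR b c - 1) := by
    have := h.c_ne; have := h.sub_ne
    rw [tR, tS]; field_simp
  have hc : c = tS b c * (tR b c - 1) := by
    have := h.c_ne; have := h.sub_ne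
    rw [tR, tS]; field_simp
  have hr1 : tR b c - 1 ≠ 0 := fun h0 => hcne (by rw [hc, h0, mul_zero])
  have hr : tR b c ≠ 0 := div_ne_zero hbne hcne
  -- closed forms for the new parameters
  have e2 : bTwo b c = -(tR b c * (tS b c - 1) ^ 3) / (tS b c ^ 4 * (tR b c - 1)) := by
    generalize tR b c = r at *
    generalize tS b c = s at *
    subst hb hc
    unfold bTwo
    field_simp
    ring
  have f2 : cTwo b c = (2 * tR b c - tR b c * tS b c - 1) / (tS b c ^ 2 * (tR b c - 1)) := by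
    generalize tR b c = r at *
    generalize tS b c = s at *
    subst hb hc
    unfold cTwo
    field_simp
    ring
  have hT := h.T_ne_zero
  have hT1 := h.T_ne_one
  have hd : 1 - tT b c ≠ 0 := fun h0 => hT1 (by linear_combination -h0)
  have hC := h.curve
  have hS : tS b c = 1 / (1 - tT b c) := by
    rw [h.tT_eq, sub_sub_cancel, one_div_one_div]
  have hRV : tR b c = (tT b c * tV b c + 2 * tT b c ^ 2 - 2 * tT b c + 1) / (1 - tT b c) ^ 3 := by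
    rw [h.tT_eq, tV]
    generalize tR b c = r at *
    generalize tS b c = s at *
    field_simp
    ring
  have g1 := h2.c_ne
  have g2 := h2.sub_ne
  have g3 := h2.s_ne
  unfold tS at g3
  simp only [tT, tV, tR, tS] at hr1 hT hT1 hd hC hS hRV e2 f2 g1 g2 g3 ⊢
  rw [e2, f2] at g2 g3 ⊢
  rw [f2] at g1
  generalize 1 - (b - c) / c ^ 2 = T at *
  generalize (b / c - (c ^ 2 / (b - c)) ^ 3 + 2 * (c ^ 2 / (b - c)) ^ 2 - 2 * (c ^ 2 / (b - c))) /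
    ((c ^ 2 / (b - c)) ^ 2 * (c ^ 2 / (b - c) - 1)) = V at *
  generalize b / c = r at *
  generalize c ^ 2 / (b - c) = s at *
  subst hS hRV
  generalize hR0 : T * V + 2 * T ^ 2 - 2 * T + 1 = R0 at *
  generalize hn2 : 2 * R0 * (1 - T) - R0 - (1 - T) ^ 4 = n2
  generalize hDd : R0 - 3 * R0 * (1 - T) + R0 * (1 - T) ^ 2 + (1 - T) ^ 3 = Dd
  generalize hR1 : R0 - (1 - T) ^ 3 = R1
  have q1 : R0 / (1 - T) ^ 3 - 1 = R1 / (1 - T) ^ 3 := by subst hR1; field_simp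
  have q2 : (2 * (R0 / (1 - T) ^ 3) - R0 / (1 - T) ^ 3 * (1 / (1 - T)) - 1) =
      n2 / (1 - T) ^ 4 := by subst hn2; field_simp
  have q3 : 1 / (1 - T) - 1 = T / (1 - T) := by field_simp; ring
  simp only [q1, q2, q3] at g1 g2 g3 ⊢
  have hR1ne : R1 ≠ 0 := by
    intro h0
    apply hr1
    rw [q1, h0, zero_div]
  have eb : -(R0 / (1 - T) ^ 3 * (T / (1 - T)) ^ 3) / ((1 / (1 - T)) ^ 4 * (R1 / (1 - T) ^ 3)) =
      -(R0 * (1 - T) * T ^ 3) / R1 := by field_simp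
  have ec : n2 / (1 - T) ^ 4 / ((1 / (1 - T)) ^ 2 * (R1 / (1 - T) ^ 3)) =
      n2 * (1 - T) / R1 := by field_simp
  rw [eb, ec] at g2 g3 ⊢
  rw [ec] at g1
  have hn2ne : n2 ≠ 0 := by
    intro h0
    apply g1
    rw [h0, zero_mul, zero_div]
  have esub : -(R0 * (1 - T) * T ^ 3) / R1 - n2 * (1 - T) / R1 = (1 - T) ^ 2 * Dd / R1 := by
    subst hn2 hDd
    field_simp
    ring
  rw [esub] at g2 g3 ⊢
  have hDdne : Dd ≠ 0 := by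
    intro h0
    apply g2
    rw [h0, mul_zero, zero_div]
  have es : (n2 * (1 - T) / R1) ^ 2 / ((1 - T) ^ 2 * Dd / R1) = n2 ^ 2 / (R1 * Dd) := by field_simp
  rw [es] at g3 ⊢
  have hse : n2 ^ 2 - R1 * Dd ≠ 0 := by
    intro h0
    apply g3
    rw [sub_eq_zero] at h0
    rw [h0, div_self (mul_ne_zero hR1ne hDdne)]
  constructor
  · have key : (n2 ^ 2 - R1 * Dd) * (T - 1) ^ 2 = (T ^ 2 - T - V) * n2 ^ 2 := by
      subst hn2 hDd hR1 hR0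
      linear_combination (
        4*V*T^4 - 4*V*T^3 + 1*V*T^2 + 3*T^6 - 5*T^5 + 6*T^4 - 4*T^3 + 1*T^2) * hC
    field_simp
    linear_combination key
  · have key : (-R0 * T ^ 3 * (R1 * Dd) ^ 3
        - n2 * ((n2 ^ 2) ^ 3 - 2 * n2 ^ 2 * n2 ^ 2 * (R1 * Dd) + 2 * n2 ^ 2 * (R1 * Dd) * (R1 * Dd)))
        * (T - 1) ^ 3 = (-V * (T - 1 - V) - (T - 1) ^ 3) *
          (n2 * n2 ^ 2 * n2 ^ 2 * (n2 ^ 2 - R1 * Dd)) := by
      subst hn2 hDd hR1 hR0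
      linear_combination (
        96*V^7*T^14 - 400*V^7*T^13 + 704*V^7*T^12 - 680*V^7*T^11 + 390*V^7*T^10 - 133*V^7*T^9 +
        25*V^7*T^8 - 2*V^7*T^7 + 336*V^6*T^16 - 1344*V^6*T^15 + 2344*V^6*T^14 - 2408*V^6*T^13 +
        1677*V^6*T^12 - 858*V^6*T^11 + 327*V^6*T^10 - 87*V^6*T^9 + 14*V^6*T^8 - 1*V^6*T^7 -
        1*V^5*T^19 + 512*V^5*T^18 - 1954*V^5*T^17 + 3289*V^5*T^16 - 3178*V^5*T^15 +
        1657*V^5*T^14 + 161*V^5*T^13 - 1172*V^5*T^12 + 1129*V^5*T^11 - 608*V^5*T^10 +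
        199*V^5*T^9 - 37*V^5*T^8 + 3*V^5*T^7 - 3*V^4*T^21 + 435*V^4*T^20 - 1525*V^4*T^19 +
        2175*V^4*T^18 - 999*V^4*T^17 - 1979*V^4*T^16 + 5023*V^4*T^15 - 6163*V^4*T^14 +
        5106*V^4*T^13 - 3143*V^4*T^12 + 1507*V^4*T^11 - 563*V^4*T^10 + 153*V^4*T^9 - 26*V^4*T^8
        + 2*V^4*T^7 - 3*V^3*T^23 + 211*V^3*T^22 - 591*V^3*T^21 + 226*V^3*T^20 + 1979*V^3*T^19 -
        5842*V^3*T^18 + 9380*V^3*T^17 - 10378*V^3*T^16 + 8505*V^3*T^15 - 5299*V^3*T^14 +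
        2480*V^3*T^13 - 821*V^3*T^12 + 169*V^3*T^11 - 16*V^3*T^10 - 1*V^2*T^25 + 49*V^2*T^24 -
        30*V^2*T^23 - 576*V^2*T^22 + 2288*V^2*T^21 - 4756*V^2*T^20 + 6524*V^2*T^19 -
        6219*V^2*T^18 + 3988*V^2*T^17 - 1332*V^2*T^16 - 354*V^2*T^15 + 781*V^2*T^14 -
        531*V^2*T^13 + 220*V^2*T^12 - 61*V^2*T^11 + 11*V^2*T^10 - 1*V^2*T^9 + 2*V*T^26 +
        42*V*T^25 - 264*V*T^24 + 705*V*T^23 - 1040*V*T^22 + 654*V*T^21 + 726*V*T^20 -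
        2507*V*T^19 + 3623*V*T^18 - 3493*V*T^17 + 2454*V*T^16 - 1285*V*T^15 + 498*V*T^14 -
        137*V*T^13 + 24*V*T^12 - 2*V*T^11 + 2*T^27 + 1*T^26 - 69*T^25 + 344*T^24 - 961*T^23 +
        1845*T^22 - 2623*T^21 + 2857*T^20 - 2417*T^19 + 1588*T^18 - 800*T^17 + 300*T^16 -
        79*T^15 + 13*T^14 - 1*T^13) * hC
    have er : -(R0 * (1 - T) * T ^ 3) / R1 / (n2 * (1 - T) / R1) = -R0 * T ^ 3 / n2 := by field_simp
    rw [er, div_sub_one (mul_ne_zero hR1ne hDdne)]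
    have hp : R1 * Dd ≠ 0 := mul_ne_zero hR1ne hDdne
    generalize R1 * Dd = p at *
    field_simp
    linear_combination key

/-- The image on 11a1 depends only on the cyclic subgroup. -/
lemma inv_two (h : Good b c) (h2 : Good (bTwo b c) (cTwo b c)) :
    x11 (bTwo b c) (cTwo b c) = x11 b c ∧ y11 (bTwo b c) (cTwo b c) = y11 b c := by
  obtain ⟨eT, eV⟩ := h.two_eq h2
  have hT' := h2.T_ne_zero
  have hT1' := h2.T_ne_one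
  have hT := h.T_ne_zero
  have hT1 := h.T_ne_one
  have hC := h.curve
  rw [x11, x11, y11, y11, eT, eV]
  rw [eT] at hT' hT1'
  generalize tT b c = T at *
  generalize tV b c = V at *
  generalize hN : T ^ 2 - T - V = N at *
  generalize hM : T - 1 - V = M
  have hM1 : N / (T - 1) ^ 2 - 1 = M / (T - 1) ^ 2 := by
    subst hM hN; field_simp; ring
  rw [hM1] at hT1'
  have hNne : N ≠ 0 := fun h0 => hT' (by rw [h0, zero_div])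
  have hMne : M ≠ 0 := fun h0 => hT1' (by rw [h0, zero_div])
  unfold isogX isogY
  rw [hM1]
  constructor
  · have key : (N ^ 3 * M ^ 2 + M ^ 2 * (T - 1) ^ 6 + 2 * N ^ 2 * M * (T - 1) ^ 4
        + N ^ 2 * (T - 1) ^ 6) * T ^ 2 =
        (T ^ 3 * (T - 1) ^ 2 + (T - 1) ^ 2 + 2 * T ^ 2 * (T - 1) + T ^ 2) * N ^ 2 * M ^ 2 := by
      subst hM hN
      linear_combination (
        -1*V^3*T^2 - 1*V^2*T^5 + 5*V^2*T^4 - 4*V^2*T^3 - 1*V^2*T^2 + 2*V^2*T - 1*V^2 + 2*V*T^7 -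
        9*V*T^6 + 12*V*T^5 - 4*V*T^4 - 2*V*T^3 + 2*V*T - 1*V - 1*T^9 + 6*T^8 - 16*T^7 + 28*T^6 -
        38*T^5 + 39*T^4 - 27*T^3 + 11*T^2 - 2*T) * hC
    field_simp
    linear_combination key
  · have key : ((-V * M - (T - 1) ^ 3) * (N ^ 3 * M ^ 3 - 2 * M ^ 3 * (T - 1) ^ 6
        - 2 * N ^ 3 * M * (T - 1) ^ 4 - 2 * N ^ 3 * (T - 1) ^ 6)
        - M ^ 3 * (T - 1) ^ 9 - N ^ 3 * M * (T - 1) ^ 7 - N ^ 3 * (T - 1) ^ 9) * T ^ 3 =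
        (V * (T ^ 3 * (T - 1) ^ 3 - 2 * (T - 1) ^ 3 - 2 * T ^ 3 * (T - 1) - 2 * T ^ 3)
          - (T - 1) ^ 3 - T ^ 3 * (T - 1) - T ^ 3) * N ^ 3 * M ^ 3 := by
      subst hM hN
      linear_combination (
        1*V^6*T^3 - 1*V^5*T^6 - 2*V^5*T^4 + 6*V^5*T^3 - 6*V^5*T^2 + 6*V^5*T - 2*V^5 + 3*V^4*T^8
        - 8*V^4*T^7 + 15*V^4*T^6 - 25*V^4*T^5 + 23*V^4*T^4 - 9*V^4*T^3 - 9*V^4*T^2 + 15*V^4*T -
        5*V^4 - 3*V^3*T^10 + 14*V^3*T^9 - 40*V^3*T^8 + 79*V^3*T^7 - 80*V^3*T^6 + 6*V^3*T^5 +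
        78*V^3*T^4 - 85*V^3*T^3 + 29*V^3*T^2 + 6*V^3*T - 4*V^3 + 1*V^2*T^12 - 6*V^2*T^11 +
        18*V^2*T^10 - 18*V^2*T^9 - 60*V^2*T^8 + 224*V^2*T^7 - 310*V^2*T^6 + 186*V^2*T^5 +
        16*V^2*T^4 - 92*V^2*T^3 + 48*V^2*T^2 - 6*V^2*T - 1*V^2 + 2*V*T^13 - 20*V*T^12 +
        89*V*T^11 - 247*V*T^10 + 508*V*T^9 - 830*V*T^8 + 1055*V*T^7 - 981*V*T^6 + 617*V*T^5 -
        228*V*T^4 + 28*V*T^3 + 10*V*T^2 - 3*V*T - 1*T^15 + 10*T^14 - 45*T^13 + 120*T^12 -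
        207*T^11 + 224*T^10 - 97*T^9 - 142*T^8 + 343*T^7 - 373*T^6 + 252*T^5 - 108*T^4 + 27*T^3
        - 3*T^2) * hC
    field_simp
    linear_combination key

end Good

end FLTAgent.X11
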